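import Fermat.Agent.CyclicReductions.Count

/-!
# The cyclic reductions up to `N` on the Riemann hypothesis

They lie among the primes with no full torsion at the `q ≤ z`, which number `δ_z li N`, and miss at
most `C z ^ (-1/8) li N + O (N ^ (5/6) log ^ 5 N)` of them: so they are `∼ (inf δ_z) N / log N`.
-/

set_option autoImplicit false
set_option linter.style.haveILetI false

noncomputable section

open WeierstrassCurve FA.Frob Finset Filter
open FA.RT.Tate (Pts)
open FA.ArtinHooley (logInt)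
open FA.ReducedGroups (FullAt levelRep)
open scoped WeierstrassCurve.Affine Classical Topology

local notation "Qb" => AlgebraicClosure ℚ
local notation "GQ" => AlgebraicClosure ℚ ≃ₐ[ℚ] AlgebraicClosure ℚ

namespace FA.CyclicRed

/-- The primes up to `z`. -/
def levelsUpTo (z : ℕ) : Finset ℕ := (Icc 1 z).filter Nat.Prime

theorem mem_levelsUpTo {q z : ℕ} : q ∈ levelsUpTo z ↔ q.Prime ∧ q ≤ z := by
  rw [levelsUpTo, mem_filter, mem_Icc]
  exact ⟨fun h => ⟨h.2, h.1.2⟩, fun h => ⟨⟨h.1.one_le, h.2⟩, h.1⟩⟩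

instance neZero_levelsUpTo (z : ℕ) (n : levelsUpTo z) : NeZero (n : ℕ) :=
  ⟨(mem_levelsUpTo.1 n.2).1.ne_zero⟩

variable (W : WeierstrassCurve ℤ)

/-- A good prime with cyclic reduction. -/
def CycPrime (p : ℕ) : Prop :=
  ∃ _ : Fact p.Prime, ¬ (p : ℤ) ∣ W.Δ ∧
    IsAddCyclic (W.map (Int.castRingHom (ZMod p))).toAffine.Point

/-- Those up to `N`. -/
def cycSet (N : ℕ) : Finset ℕ := (Icc 1 N).filter fun p => CycPrime W p

/-- No full torsion at the primes up to `z`. -/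
def avoidSet (z N : ℕ) : Finset ℕ :=
  (Icc 1 N).filter fun p => p.Prime ∧ (p ∉ badPrimes W ∧ ∀ q ∈ levelsUpTo z, ¬ FullAt W q p)

variable [(ratCurve W).IsElliptic]

/-- The share of the elements trivial on no `E[q]`, `q ≤ z`. -/
def avoidShare (z : ℕ) : ℝ :=
  imageShare (levelRep W (levelsUpTo z)) {g | ∀ n, g n ≠ 1}

/-- Serre's density. -/
def cycDensity : ℝ := ⨅ z, avoidShare W z

variable {W} (hΔ : W.Δ ≠ 0) (hGRH : AllFieldsRH)

theorem tendsto_logInt_nat : Tendsto (fun N : ℕ => logInt N * Real.log N / N) atTop (𝓝 1) :=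
  FA.ArtinHooley.tendsto_logInt.comp tendsto_natCast_atTop_atTop

theorem tendsto_error (K : ℝ) :
    Tendsto (fun N : ℕ => K * ((N : ℝ) ^ (5 / 6 : ℝ) * Real.log N ^ 5) * (Real.log N / N))
      atTop (𝓝 0) := by
  have h := ((isLittleO_log_rpow_rpow_atTop (6 : ℕ) (show (0 : ℝ) < 1 / 6 by norm_num)
    ).tendsto_div_nhds_zero.comp tendsto_natCast_atTop_atTop).const_mul K
  rw [mul_zero] at h
  refine h.congr' ?_
  filter_upwards [eventually_ge_atTop 1] with N hN
  have hN0 : (0 : ℝ) < N := Nat.cast_pos.2 hN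
  simp only [Function.comp_apply, Real.rpow_natCast]
  have e : (N : ℝ) ^ (5 / 6 : ℝ) * (N : ℝ) ^ (1 / 6 : ℝ) = N := by
    rw [← Real.rpow_add hN0]
    norm_num
  field_simp
  linear_combination (-(K * Real.log (N : ℝ) ^ 6)) * e

/-- `√N (log N) ^ 4 + 1` and a factor `N ^ (1/3) (1 + log N)` stay below `N ^ (5/6) (log N) ^ 5`. -/
theorem error_le {N : ℕ} (hN : 1 ≤ Real.log N) :
    √(N : ℝ) * Real.log N ^ 4 + 1 ≤ 2 * ((N : ℝ) ^ (5 / 6 : ℝ) * Real.log N ^ 5) ∧
      (N : ℝ) ^ (1 / 3 : ℝ) * (1 + Real.log N) * (√(N : ℝ) * Real.log N ^ 4 + 1) ≤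
        4 * ((N : ℝ) ^ (5 / 6 : ℝ) * Real.log N ^ 5) := by
  have hN1 : (1 : ℝ) ≤ N := Nat.one_le_cast.2 (Nat.pos_of_ne_zero fun h => by
    rw [h, Nat.cast_zero, Real.log_zero] at hN
    linarith)
  obtain ⟨L, hL⟩ : ∃ L, L = Real.log N := ⟨_, rfl⟩
  rw [← hL] at hN ⊢
  have hL4 : 1 ≤ L ^ 4 := one_le_pow₀ hN
  have hs : 1 ≤ √(N : ℝ) := Real.one_le_sqrt.2 hN1
  have h1 : √(N : ℝ) * L ^ 4 + 1 ≤ 2 * (√(N : ℝ) * L ^ 4) := by
    linarith [one_le_mul_of_one_le_of_one_le hs hL4]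
  have e : (N : ℝ) ^ (1 / 3 : ℝ) * √(N : ℝ) = (N : ℝ) ^ (5 / 6 : ℝ) := by
    rw [Real.sqrt_eq_rpow, ← Real.rpow_add (by linarith)]
    norm_num
  have hc : 1 ≤ (N : ℝ) ^ (1 / 3 : ℝ) := Real.one_le_rpow hN1 (by norm_num)
  constructor
  · refine h1.trans (mul_le_mul_of_nonneg_left ?_ two_pos.le)
    rw [← e, pow_succ]
    calc √(N : ℝ) * L ^ 4 ≤ (N : ℝ) ^ (1 / 3 : ℝ) * √(N : ℝ) * L ^ 4 :=
          mul_le_mul_of_nonneg_right (le_mul_of_one_le_left (by positivity) hc) (by positivity)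
      _ ≤ _ := mul_le_mul_of_nonneg_left (le_mul_of_one_le_right (by positivity) hN)
          (by positivity)
  · calc (N : ℝ) ^ (1 / 3 : ℝ) * (1 + L) * (√(N : ℝ) * L ^ 4 + 1)
        ≤ (N : ℝ) ^ (1 / 3 : ℝ) * (2 * L) * (2 * (√(N : ℝ) * L ^ 4)) := by
          gcongr
          linarith
      _ = _ := by rw [← e]; ring

include hΔ hGRH in
/-- The primes with no full torsion up to `z`. -/
theorem tendsto_avoidSet (z : ℕ) :
    Tendsto (fun N : ℕ => ((avoidSet W z N).card : ℝ) * Real.log N / N) atTop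
      (𝓝 (avoidShare W z)) := by
  obtain ⟨A, hA, h⟩ := exists_count_of_GRH
  obtain ⟨S, hS⟩ : ∃ S, S = badPrimes W ∪ levelsUpTo z := ⟨_, rfl⟩
  have hSmem : ∀ p : ℕ, p.Prime → p ∉ S →
      p ∉ badPrimes W ∧ ∀ q ∈ levelsUpTo z, ¬ p ∣ q := fun p hp hpS => by
    rw [hS, mem_union, not_or] at hpS
    exact ⟨hpS.1, fun q hq hd =>
      hpS.2 (((Nat.prime_dvd_prime_iff_eq hp (mem_levelsUpTo.1 hq).1).1 hd) ▸ hq)⟩
  obtain ⟨G, hG⟩ : ∃ G : ℝ, G = (A * (avoidShare W z *
      Nat.card (levelRep W (levelsUpTo z)).range) * (2 + Real.log (Nat.card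
        (levelRep W (levelsUpTo z)).range) + ∑ p ∈ S, Real.log p) + S.card) := ⟨_, rfl⟩
  have hAS : 0 ≤ A * (avoidShare W z * Nat.card (levelRep W (levelsUpTo z)).range) *
      (2 + Real.log (Nat.card (levelRep W (levelsUpTo z)).range) + ∑ p ∈ S, Real.log p) := by
    have : 0 ≤ avoidShare W z := imageShare_nonneg _ _
    have : 0 ≤ Real.log (Nat.card (levelRep W (levelsUpTo z)).range) := Real.log_natCast_nonneg _
    have : 0 ≤ ∑ p ∈ S, Real.log p := sum_nonneg fun p _ => Real.log_natCast_nonneg p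
    positivity
  have hmain : ∀ N : ℕ, 2 ≤ N → |((avoidSet W z N).card : ℝ) - avoidShare W z * logInt N| ≤
      G * (√(N : ℝ) * Real.log N ^ 4 + 1) := fun N hN => by
    have h1 := h (levelRep W (levelsUpTo z))
      (FA.ReducedGroups.isOpen_ker_levelRep W _) hGRH S
      (fun p hp => by
        rw [hS, mem_union] at hp
        exact hp.elim (prime_of_mem_badPrimes W) fun h => (mem_levelsUpTo.1 h).1)
      (fun p hp hpS B hB σ hσ => MonoidHom.mem_ker.2 (funext fun n =>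
        MonoidHom.mem_ker.1 (inertia_le_ker_glLevel W hp
          (good_of_not_mem hΔ hp (hSmem p hp hpS).1).2 ((hSmem p hp hpS).2 n n.2) hB hσ)))
      {g | ∀ n, g n ≠ 1} (fun g hg x n e => hg n (conj_eq_one_iff.1 e))
      (fun p => p ∉ badPrimes W ∧ ∀ q ∈ levelsUpTo z, ¬ FullAt W q p)
      (fun p hp hpS B hB σ hσ => by
        obtain ⟨hbad, hdiv⟩ := hSmem p hp hpS
        rw [and_iff_right hbad]
        have hiff : ∀ n : levelsUpTo z,
            FullAt W n p ↔ levelRep W (levelsUpTo z) σ n = 1 := fun n =>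
          FA.ReducedGroups.fullAt_iff W hp (good_of_not_mem hΔ hp hbad).2 (hdiv n n.2) hB hσ
        exact ⟨fun h n => fun e => h n n.2 ((hiff n).2 e),
          fun h q hq hf => h ⟨q, hq⟩ ((hiff ⟨q, hq⟩).1 hf)⟩) N hN
    refine (le_of_eq_of_le (by rw [avoidSet, avoidShare]; congr!) h1).trans ?_
    rw [hG]
    have hR : 0 ≤ √(N : ℝ) * Real.log N ^ 4 := by
      have := Real.log_natCast_nonneg N
      positivity
    rw [avoidShare] at hAS ⊢
    nlinarith [mul_nonneg (Nat.cast_nonneg (α := ℝ) S.card) hR]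
  have hG0 : 0 ≤ G := by
    rw [hG]
    linarith [Nat.cast_nonneg (α := ℝ) S.card]
  have h1 : Tendsto (fun N : ℕ => avoidShare W z * (logInt N * Real.log N / N)) atTop
      (𝓝 (avoidShare W z)) := by
    simpa using tendsto_logInt_nat.const_mul (avoidShare W z)
  refine h1.congr_dist ?_
  refine squeeze_zero' (Eventually.of_forall fun N => dist_nonneg) ?_ (tendsto_error (2 * G))
  filter_upwards [eventually_ge_atTop 2,
    (Real.tendsto_log_atTop.comp tendsto_natCast_atTop_atTop).eventually_ge_atTop 1] with N hN hL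
  simp only [Function.comp_apply] at hL
  rw [dist_comm, Real.dist_eq, show ((avoidSet W z N).card : ℝ) * Real.log N / N -
    avoidShare W z * (logInt N * Real.log N / N) =
    (((avoidSet W z N).card : ℝ) - avoidShare W z * logInt N) * (Real.log N / N) by ring, abs_mul,
    abs_of_nonneg (show 0 ≤ Real.log (N : ℝ) / N by positivity)]
  refine mul_le_mul_of_nonneg_right ((hmain N hN).trans ?_) (by positivity)
  rw [mul_comm (2 : ℝ) G, mul_assoc G]
  exact mul_le_mul_of_nonneg_left (error_le hL).1 hG0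

omit [(ratCurve W).IsElliptic] in
include hΔ in
theorem card_cycSet_le (z N : ℕ) :
    (cycSet W N).card ≤ (avoidSet W z N).card + (badPrimes W).card := by
  refine (card_le_card fun p hp => ?_).trans (card_union_le _ _)
  rw [cycSet, mem_filter] at hp
  obtain ⟨hp1, hf, hgood, hcyc⟩ := hp
  rw [mem_union]
  by_cases hbad : p ∈ badPrimes W
  · exact Or.inr hbad
  haveI := ratCurve_isElliptic_of_Δ hΔ
  exact Or.inl (mem_filter.2 ⟨hp1, hf.out, hbad, fun q hq =>
    FA.ReducedGroups.not_fullAt_of_isAddCyclic W (mem_levelsUpTo.1 hq).1.two_le hcyc⟩)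

omit [(ratCurve W).IsElliptic] in
include hΔ in
theorem card_avoidSet_le (z u N : ℕ) :
    (avoidSet W z N).card ≤ (cycSet W N).card +
      ((((Ioc z u).filter Nat.Prime).biUnion fun q => fullCount W q N).card +
        (((Ioc u N).filter Nat.Prime).biUnion fun q => fullCount W q N).card) := by
  refine (card_le_card (t := cycSet W N ∪
    (((Ioc z u).filter Nat.Prime).biUnion (fun q => fullCount W q N) ∪
      ((Ioc u N).filter Nat.Prime).biUnion fun q => fullCount W q N)) fun p hp => ?_).trans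
    ((card_union_le _ _).trans (Nat.add_le_add_left (card_union_le _ _) _))
  rw [avoidSet, mem_filter, mem_Icc] at hp
  obtain ⟨hpI, hpp, hbad, hav⟩ := hp
  haveI := Fact.mk hpp
  obtain ⟨h3, hgood⟩ := good_of_not_mem hΔ hpp hbad
  rw [mem_union]
  by_cases hex : ∃ q : ℕ, q.Prime ∧ FullAt W q p
  · refine Or.inr ?_
    obtain ⟨q, hq, hfull⟩ := hex
    have hzq : z < q := by
      by_contra hle
      exact hav q (mem_levelsUpTo.2 ⟨hq, not_lt.1 hle⟩) hfull
    have hqN : q ≤ N := by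
      have := Nat.le_of_dvd (by omega) ((full_facts W h3 hgood).2 q hq hfull).1
      omega
    have hmem : p ∈ fullCount W q N := mem_filter.2 ⟨mem_Icc.2 hpI, hpp, hbad, hfull⟩
    rw [mem_union]
    rcases le_or_gt q u with h | h
    · exact Or.inl (mem_biUnion.2 ⟨q, mem_filter.2 ⟨mem_Ioc.2 ⟨hzq, h⟩, hq⟩, hmem⟩)
    · exact Or.inr (mem_biUnion.2 ⟨q, mem_filter.2 ⟨mem_Ioc.2 ⟨h, hqN⟩, hq⟩, hmem⟩)
  · push Not at hex
    exact Or.inl (mem_filter.2 ⟨mem_Icc.2 hpI, Fact.mk hpp, hgood,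
      (full_facts W h3 hgood).1 hex⟩)

include hΔ hGRH in
/-- The tail. -/
theorem exists_tail_le : ∃ C : ℝ, 0 ≤ C ∧ ∀ z : ℕ, 1 ≤ z → ∀ u : ℕ,
    ∑ q ∈ (Ioc z u).filter Nat.Prime, 1 / (degree W q : ℝ) ≤ C * (z : ℝ) ^ (-(1 / 8) : ℝ) := by
  obtain ⟨C, hC, h⟩ := exists_inv_degree_le W hΔ hGRH
  have hsum : Summable fun n : ℕ => (n : ℝ) ^ (-(9 / 8) : ℝ) :=
    Real.summable_nat_rpow.2 (by norm_num)
  refine ⟨C * ∑' n : ℕ, (n : ℝ) ^ (-(9 / 8) : ℝ),
    mul_nonneg hC (tsum_nonneg fun n => Real.rpow_nonneg (Nat.cast_nonneg n) _),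
    fun z hz u => ?_⟩
  refine (sum_le_sum fun q hq => ?_).trans ((mul_sum _ _ _).symm.le.trans
    (le_of_le_of_eq (mul_le_mul_of_nonneg_left (hsum.sum_le_tsum _ fun n _ =>
      Real.rpow_nonneg (Nat.cast_nonneg n) _) (show 0 ≤ C * (z : ℝ) ^ (-(1 / 8) : ℝ) by positivity))
      (by ring)))
  rw [mem_filter, mem_Ioc] at hq
  refine (h q hq.2).trans ?_
  rw [mul_assoc]
  refine mul_le_mul_of_nonneg_left ?_ hC
  have hz0 : (0 : ℝ) < z := Nat.cast_pos.2 hz
  have hzq : (z : ℝ) ≤ q := Nat.cast_le.2 hq.1.1.le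
  rw [show (-(5 / 4) : ℝ) = -(1 / 8) + -(9 / 8) by norm_num,
    Real.rpow_add (by linarith : (0 : ℝ) < q)]
  exact mul_le_mul_of_nonneg_right (Real.rpow_le_rpow_of_nonpos hz0 hzq (by norm_num))
    (Real.rpow_nonneg (Nat.cast_nonneg q) _)

include hΔ hGRH in
/-- **From below**: the cyclic ones are all but `C z ^ (-1/8)` of the avoiding ones. -/
theorem exists_gap_le : ∃ C : ℝ, 0 ≤ C ∧ ∀ z : ℕ, 1 ≤ z → ∀ η : ℝ, 0 < η →
    ∀ᶠ N : ℕ in atTop, ((avoidSet W z N).card : ℝ) * Real.log N / N ≤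
      ((cycSet W N).card : ℝ) * Real.log N / N + C * (z : ℝ) ^ (-(1 / 8) : ℝ) + η := by
  obtain ⟨C, hC, htail⟩ := exists_tail_le hΔ hGRH
  obtain ⟨B, hB, hfull⟩ := exists_fullCount_sub_le W hΔ hGRH
  refine ⟨2 * C, by linarith, fun z hz η hη => ?_⟩
  filter_upwards [eventually_ge_atTop 2,
    (Real.tendsto_log_atTop.comp tendsto_natCast_atTop_atTop).eventually_ge_atTop 1,
    tendsto_logInt_nat.eventually (eventually_le_nhds (show (1 : ℝ) < 2 by norm_num)),
    (tendsto_error (4 * B + 160)).eventually (eventually_le_nhds hη)] with N hN hL hI hE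
  simp only [Function.comp_apply] at hL
  obtain ⟨u, hu⟩ : ∃ u, u = ⌊(N : ℝ) ^ (1 / 3 : ℝ)⌋₊ := ⟨_, rfl⟩
  have hN0 : (0 : ℝ) < N := Nat.cast_pos.2 (by omega)
  have hc1 : 1 ≤ (N : ℝ) ^ (1 / 3 : ℝ) := Real.one_le_rpow (Nat.one_le_cast.2 (by omega))
    (by norm_num)
  have hu1 : 1 ≤ u := hu ▸ Nat.le_floor (by simpa using hc1)
  have hule : (u : ℝ) ≤ (N : ℝ) ^ (1 / 3 : ℝ) := hu ▸ Nat.floor_le (by positivity)
  have huge : (N : ℝ) ^ (1 / 3 : ℝ) ≤ 2 * u := by
    have := Nat.lt_floor_add_one ((N : ℝ) ^ (1 / 3 : ℝ))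
    rw [← hu] at this
    linarith [(Nat.one_le_cast.2 hu1 : (1 : ℝ) ≤ u)]
  obtain ⟨E, hEdef⟩ : ∃ E, E = (N : ℝ) ^ (5 / 6 : ℝ) * Real.log N ^ 5 := ⟨_, rfl⟩
  have h0 := (Nat.cast_le (α := ℝ)).2 (card_avoidSet_le hΔ z u N)
  push_cast at h0
  have hlarge : ((((Ioc u N).filter Nat.Prime).biUnion fun q => fullCount W q N).card : ℝ) ≤
      160 * E := by
    refine (card_large_le W hΔ (by omega) hu1).trans ?_
    rw [div_le_iff₀ (by positivity), hEdef]
    have e : (N : ℝ) * √(N : ℝ) = (N : ℝ) ^ (5 / 6 : ℝ) * ((N : ℝ) ^ (1 / 3 : ℝ)) ^ 2 := by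
      rw [Real.sqrt_eq_rpow, ← Real.rpow_natCast ((N : ℝ) ^ (1 / 3 : ℝ)) 2,
        ← Real.rpow_mul hN0.le, ← Real.rpow_add hN0]
      nth_rw 1 [← Real.rpow_one (N : ℝ)]
      rw [← Real.rpow_add hN0]
      norm_num
    have h5 : 1 ≤ Real.log (N : ℝ) ^ 5 := one_le_pow₀ hL
    have hp : 0 ≤ (N : ℝ) ^ (5 / 6 : ℝ) := by positivity
    rw [e]
    calc 40 * ((N : ℝ) ^ (5 / 6 : ℝ) * ((N : ℝ) ^ (1 / 3 : ℝ)) ^ 2)
        ≤ 40 * ((N : ℝ) ^ (5 / 6 : ℝ) * Real.log N ^ 5 * (2 * u) ^ 2) := by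
          gcongr
          exact le_mul_of_one_le_right hp h5
      _ = _ := by ring
  have hsmall : ((((Ioc z u).filter Nat.Prime).biUnion fun q => fullCount W q N).card : ℝ) ≤
      logInt N * (C * (z : ℝ) ^ (-(1 / 8) : ℝ)) + 4 * B * E := by
    refine (Nat.cast_le.2 card_biUnion_le).trans ?_
    push_cast
    refine (sum_le_sum (g := fun q => logInt N * (1 / (degree W q : ℝ)) +
      B * (1 + Real.log N) * (√(N : ℝ) * Real.log N ^ 4 + 1)) fun q hq => ?_).trans ?_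
    · rw [mem_filter, mem_Ioc] at hq
      have h1 := (abs_le.1 (hfull q hq.2 N hN)).2
      have hqN : (q : ℝ) ≤ N := ((Nat.cast_le.2 hq.1.2).trans hule).trans
        ((Real.rpow_le_rpow_of_exponent_le (Nat.one_le_cast.2 (by omega))
          (show (1 / 3 : ℝ) ≤ 1 by norm_num)).trans_eq (Real.rpow_one _))
      have h2 : B * (1 + Real.log q) * (√(N : ℝ) * Real.log N ^ 4 + 1) ≤
          B * (1 + Real.log N) * (√(N : ℝ) * Real.log N ^ 4 + 1) := by
        gcongr
        exact_mod_cast hq.2.pos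
      rw [mul_one_div]
      linarith
    · rw [sum_add_distrib, ← mul_sum, sum_const, nsmul_eq_mul]
      refine add_le_add (mul_le_mul_of_nonneg_left (htail z hz u)
        (FA.ArtinHooley.logInt_nonneg (by exact_mod_cast hN))) ?_
      have hk : ((((Ioc z u).filter Nat.Prime).card : ℕ) : ℝ) ≤ (N : ℝ) ^ (1 / 3 : ℝ) :=
        (Nat.cast_le.2 ((card_filter_le _ _).trans (by rw [Nat.card_Ioc]; omega :
          (Ioc z u).card ≤ u))).trans hule
      refine (mul_le_mul_of_nonneg_right hk (by positivity)).trans ?_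
      have := mul_le_mul_of_nonneg_left (error_le hL).2 hB
      rw [hEdef]
      linarith
  have hl : 0 ≤ Real.log (N : ℝ) / N := by positivity
  have h1 : ((avoidSet W z N).card : ℝ) * (Real.log N / N) ≤
      (((cycSet W N).card : ℝ) + logInt N * (C * (z : ℝ) ^ (-(1 / 8) : ℝ)) + (4 * B + 160) * E) *
        (Real.log N / N) :=
    mul_le_mul_of_nonneg_right (by linarith) hl
  rw [← hEdef] at hE
  have hz8 : 0 ≤ C * (z : ℝ) ^ (-(1 / 8) : ℝ) := by positivity
  have h2 := mul_le_mul_of_nonneg_right hI hz8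
  rw [mul_div_assoc, mul_div_assoc]
  rw [mul_div_assoc] at h2
  nlinarith

include hΔ hGRH in
theorem avoidShare_antitone : Antitone (avoidShare W) := fun z z' h => by
  refine le_of_tendsto_of_tendsto' (tendsto_avoidSet hΔ hGRH z') (tendsto_avoidSet hΔ hGRH z)
    fun N => ?_
  refine div_le_div_of_nonneg_right (mul_le_mul_of_nonneg_right (Nat.cast_le.2 (card_le_card
    fun p hp => ?_)) (Real.log_natCast_nonneg N)) (Nat.cast_nonneg N)
  rw [avoidSet, mem_filter] at hp ⊢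
  exact ⟨hp.1, hp.2.1, hp.2.2.1, fun q hq => hp.2.2.2 q
    (mem_levelsUpTo.2 ⟨(mem_levelsUpTo.1 hq).1, (mem_levelsUpTo.1 hq).2.trans h⟩)⟩

theorem bddBelow_avoidShare : BddBelow (Set.range (avoidShare W)) :=
  ⟨0, by rintro _ ⟨z, rfl⟩; exact imageShare_nonneg _ _⟩

include hΔ hGRH in
/-- **The cyclic reductions.** -/
theorem tendsto_cycSet :
    Tendsto (fun N : ℕ => ((cycSet W N).card : ℝ) * Real.log N / N) atTop
      (𝓝 (cycDensity W)) := by
  obtain ⟨C, hC, hgap⟩ := exists_gap_le hΔ hGRH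
  rw [Metric.tendsto_nhds]
  intro ε hε
  have hinf := (tendsto_atTop_ciInf (avoidShare_antitone hΔ hGRH) bddBelow_avoidShare)
  have hz8 : Tendsto (fun z : ℕ => C * (z : ℝ) ^ (-(1 / 8) : ℝ)) atTop (𝓝 0) := by
    simpa using ((tendsto_rpow_neg_atTop (show (0 : ℝ) < 1 / 8 by norm_num)).comp
      tendsto_natCast_atTop_atTop).const_mul C
  obtain ⟨z, hz, hz1, hzC⟩ := ((eventually_ge_atTop 1).and ((hinf.eventually
    (eventually_lt_nhds (show cycDensity W < cycDensity W + ε / 4 by linarith))).and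
      (hz8.eventually (eventually_lt_nhds (show (0 : ℝ) < ε / 4 by linarith))))).exists
  have hb : Tendsto (fun N : ℕ => ((badPrimes W).card : ℝ) * (Real.log N / N)) atTop (𝓝 0) := by
    have := (Real.isLittleO_log_id_atTop.tendsto_div_nhds_zero.comp
      tendsto_natCast_atTop_atTop).const_mul ((badPrimes W).card : ℝ)
    simpa [Function.comp_def] using this
  have hlow : cycDensity W ≤ avoidShare W z := ciInf_le bddBelow_avoidShare z
  filter_upwards [hgap z hz (ε / 4) (by linarith),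
    Metric.tendsto_nhds.1 (tendsto_avoidSet hΔ hGRH z) (ε / 4) (by linarith),
    hb.eventually (eventually_lt_nhds (show (0 : ℝ) < ε / 4 by linarith))] with N h1 h2 h3
  rw [Real.dist_eq, abs_lt] at h2 ⊢
  have h4 : ((cycSet W N).card : ℝ) * Real.log N / N ≤
      ((avoidSet W z N).card : ℝ) * Real.log N / N +
        ((badPrimes W).card : ℝ) * (Real.log N / N) := by
    rw [mul_div_assoc, mul_div_assoc, ← add_mul]
    exact mul_le_mul_of_nonneg_right (by exact_mod_cast card_cycSet_le hΔ z N)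
      (div_nonneg (Real.log_natCast_nonneg N) (Nat.cast_nonneg N))
  constructor <;> linarith

include hΔ hGRH in
/-- The density is within `C z ^ (-1/8)` of the share at `z`. -/
theorem exists_avoidShare_le : ∃ C : ℝ, 0 ≤ C ∧ ∀ z : ℕ, 1 ≤ z →
    avoidShare W z ≤ cycDensity W + C * (z : ℝ) ^ (-(1 / 8) : ℝ) := by
  obtain ⟨C, hC, hgap⟩ := exists_gap_le hΔ hGRH
  refine ⟨C, hC, fun z hz => le_of_forall_pos_le_add fun η hη => ?_⟩
  exact le_of_tendsto_of_tendsto (tendsto_avoidSet hΔ hGRH z)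
    (((tendsto_cycSet hΔ hGRH).add_const _).add_const η) (hgap z hz η hη)

end FA.CyclicRed

end
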