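import Fermat.Agent.CyclicReductions.Frobenius
import Fermat.Agent.ReducedGroups.SplitLevel
import Fermat.Agent.Root.SummaryGaloisGL2

/-!
# The reductions with full `q`-torsion

Away from `2 Δ` the group `E(𝔽_p)` is non-cyclic iff it has full `q`-torsion for some prime `q`,
and then `q ^ 2 ∣ p + 1 - a_p`, `q ∣ a_p - 2`. So at most `40 N √N / q ^ 3` primes `p ≤ N` have it,
against `li N / n_q` on the Riemann hypothesis: hence `1 / n_q ≪ q ^ (-5/4)`.
-/

set_option autoImplicit false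
set_option linter.style.haveILetI false

noncomputable section

open WeierstrassCurve FA.Frob Finset
open FA.RT.Tate (Pts)
open FA.ArtinHooley (logInt)
open FA.ReducedGroups (FullAt)
open scoped WeierstrassCurve.Affine Classical

local notation "Qb" => AlgebraicClosure ℚ
local notation "GQ" => AlgebraicClosure ℚ ≃ₐ[ℚ] AlgebraicClosure ℚ

namespace FA.CyclicRed

variable (W : WeierstrassCurve ℤ)

/-- `2` and the bad primes. -/
def badPrimes : Finset ℕ := insert 2 W.Δ.natAbs.primeFactors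

theorem prime_of_mem_badPrimes {p : ℕ} (hp : p ∈ badPrimes W) : p.Prime := by
  rw [badPrimes, mem_insert] at hp
  rcases hp with rfl | hp
  exacts [Nat.prime_two, Nat.prime_of_mem_primeFactors hp]

variable {W} in
theorem good_of_not_mem (hΔ : W.Δ ≠ 0) {p : ℕ} (hp : p.Prime) (h : p ∉ badPrimes W) :
    3 ≤ p ∧ W.IsGoodPrimeFor p := by
  rw [badPrimes, mem_insert, not_or] at h
  refine ⟨(Nat.lt_of_le_of_ne hp.two_le (Ne.symm h.1)), fun hd => h.2 ?_⟩
  exact Nat.mem_primeFactors.2 ⟨hp, Int.natCast_dvd.1 hd, Int.natAbs_ne_zero.2 hΔ⟩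

/-- **Cyclic means no full `q`-torsion**, and full `q`-torsion has these consequences. -/
theorem full_facts {p : ℕ} [hp : Fact p.Prime] (h3 : 3 ≤ p) (hgood : W.IsGoodPrimeFor p) :
    ((∀ q : ℕ, q.Prime → ¬ FullAt W q p) →
        IsAddCyclic (W.map (Int.castRingHom (ZMod p))).toAffine.Point) ∧
      ∀ q : ℕ, q.Prime → FullAt W q p → q ∣ p - 1 ∧ (q : ℤ) ∣ W.apOfModel p - 2 ∧
        ∃ k : ℕ, 0 < k ∧ (q : ℤ) ^ 2 * k = p + 1 - W.apOfModel p ∧
          W.apOfModel p ^ 2 ≤ 4 * p := by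
  haveI := ratCurve_isElliptic W (l := p) hgood
  haveI := FA.PointDiv.reductionMod_isElliptic W hgood
  haveI : (W.map (Int.castRingHom (ZMod p))).IsElliptic :=
    FA.PointDiv.reductionMod_isElliptic W hgood
  obtain ⟨d, hde, hcard, h1, h2, ⟨φ⟩⟩ :=
    FA.ReducedGroups.exists_equiv_zmod h3 (W.map (Int.castRingHom (ZMod p)))
  obtain ⟨e, hedef⟩ : ∃ e,
      e = AddMonoid.exponent (W.map (Int.castRingHom (ZMod p))).toAffine.Point := ⟨_, rfl⟩
  rw [← hedef] at hde hcard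
  have he0 : 0 < e := hedef ▸ Nat.pos_of_ne_zero AddMonoid.exponent_ne_zero_of_finite
  have hd0 : 0 < d := Nat.pos_of_ne_zero fun h => by
    rw [h, zero_mul] at hcard
    exact Nat.card_pos.ne hcard
  haveI : NeZero d := ⟨hd0.ne'⟩
  haveI : NeZero (AddMonoid.exponent (W.map (Int.castRingHom (ZMod p))).toAffine.Point) :=
    ⟨hedef ▸ he0.ne'⟩
  have hiff : ∀ q : ℕ, q.Prime → (FullAt W q p ↔ q ∣ d) := fun q hq => by
    rw [← FA.ReducedGroups.natCard_nsmul_eq_sq_iff φ (hedef ▸ hde) hq.pos]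
    exact ⟨fun ⟨_, h⟩ => h, fun h => ⟨hp, h⟩⟩
  refine ⟨fun hno => ?_, fun q hq hfull => ?_⟩
  · obtain rfl : d = 1 := Nat.eq_one_iff_not_exists_prime_dvd.2
      fun q hq hqd => hno q hq ((hiff q hq).2 hqd)
    refine isAddCyclic_of_surjective
      (φ.symm.toAddMonoidHom.comp (AddMonoidHom.inr (ZMod 1) _)) fun x => ⟨(φ x).2, ?_⟩
    show φ.symm ((0 : ZMod 1), (φ x).2) = x
    rw [Subsingleton.elim (0 : ZMod 1) (φ x).1]
    exact φ.symm_apply_apply x
  · have hqd := (hiff q hq).1 hfull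
    refine ⟨hqd.trans h1, (Int.natCast_dvd_natCast.2 hqd).trans h2, ?_⟩
    obtain ⟨b, hb⟩ := hqd.trans hde
    obtain ⟨a, ha⟩ := hqd
    refine ⟨a * b, Nat.mul_pos (Nat.pos_of_ne_zero fun h => hd0.ne' (by rw [ha, h, mul_zero]))
      (Nat.pos_of_ne_zero fun h => he0.ne' (by rw [hb, h, mul_zero])), ?_, ?_⟩
    · have hc : ((q : ℤ) ^ 2 * ((a * b : ℕ) : ℤ)) =
          Nat.card (W.map (Int.castRingHom (ZMod p))).toAffine.Point := by
        rw [← hcard, ha, hb]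
        push_cast
        ring
      rw [hc]
      show _ = (p : ℤ) + 1 - ((Nat.card (ZMod p) : ℤ) + 1 - _)
      rw [Nat.card_zmod, sub_sub_cancel]
      rfl
    · have h := FA.HasseBound.traceOfFrobenius_sq_le (W.map (Int.castRingHom (ZMod p)))
      exact h

/-- The primes `p ≤ N` at which a prime `q` gives full torsion. -/
def fullCount (W : WeierstrassCurve ℤ) (q N : ℕ) : Finset ℕ :=
  (Icc 1 N).filter fun p => p.Prime ∧ (p ∉ badPrimes W ∧ FullAt W q p)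

/-- **At most `40 N √N / q ^ 3` of them.** -/
theorem card_fullCount_le (hΔ : W.Δ ≠ 0) {q : ℕ} (hq : q.Prime) {N : ℕ} (hN : 1 ≤ N) :
    ((fullCount W q N).card : ℝ) ≤ 40 * (N * √(N : ℝ)) / (q : ℝ) ^ 3 := by
  obtain ⟨s, hs⟩ : ∃ s, s = Nat.sqrt (4 * N) := ⟨_, rfl⟩
  obtain ⟨J, hJ⟩ : ∃ J, J = (s + 2) / q := ⟨_, rfl⟩
  obtain ⟨K, hK⟩ : ∃ K, K = 4 * N / q ^ 2 := ⟨_, rfl⟩
  have hsub : fullCount W q N ⊆ (Icc (-(J : ℤ)) J ×ˢ Icc 1 K).image fun jk =>
      (2 + (q : ℤ) * jk.1 - 1 + (q : ℤ) ^ 2 * (jk.2 : ℕ)).toNat := fun p hp => by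
    rw [fullCount, mem_filter, mem_Icc] at hp
    obtain ⟨⟨-, hpN⟩, hpp, hbad, hfull⟩ := hp
    haveI := Fact.mk hpp
    obtain ⟨h3, hgood⟩ := good_of_not_mem hΔ hpp hbad
    obtain ⟨-, ⟨j, hj⟩, k, hk0, hk, ha⟩ := (full_facts W h3 hgood).2 q hq hfull
    obtain ⟨a, hadef⟩ : ∃ a, a = W.apOfModel p := ⟨_, rfl⟩
    rw [← hadef] at hj hk ha
    have haN : a.natAbs ≤ s := by
      rw [hs, Nat.le_sqrt']
      zify
      rw [sq_abs]
      linarith [(Int.ofNat_le.2 hpN : (p : ℤ) ≤ N)]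
    have hj' : j.natAbs ≤ J := by
      rw [hJ, Nat.le_div_iff_mul_le hq.pos, mul_comm, ← Int.natAbs_natCast q, ← Int.natAbs_mul,
        ← hj]
      exact (Int.natAbs_sub_le a 2).trans (Nat.add_le_add_right haN 2)
    have hkK : k ≤ K := by
      rw [hK, Nat.le_div_iff_mul_le (pow_pos hq.pos 2), mul_comm]
      zify
      rw [hk]
      have hp3 : (3 : ℤ) ≤ p := Int.ofNat_le.2 h3
      nlinarith [(Int.ofNat_le.2 hpN : (p : ℤ) ≤ N), sq_nonneg (a + 2), sq_nonneg ((p : ℤ) - 2)]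
    refine mem_image.2 ⟨(j, k), mem_product.2 ⟨mem_Icc.2 ⟨by omega, by omega⟩,
      mem_Icc.2 ⟨hk0, hkK⟩⟩, ?_⟩
    rw [hk, ← hj, show 2 + (a - 2) - 1 + ((p : ℤ) + 1 - a) = p by ring, Int.toNat_natCast]
  have hcard : ((fullCount W q N).card : ℝ) ≤ (2 * (J : ℝ) + 1) * K := by
    refine (Nat.cast_le.2 ((card_le_card hsub).trans card_image_le)).trans (le_of_eq ?_)
    rw [card_product, Int.card_Icc, Nat.card_Icc, Nat.add_sub_cancel,
      show (((J : ℤ) + 1 - -(J : ℤ)).toNat) = 2 * J + 1 by omega]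
    push_cast
    ring
  refine hcard.trans ?_
  have hq0 : (0 : ℝ) < q := Nat.cast_pos.2 hq.pos
  rcases Nat.eq_zero_or_pos K with hK0 | hK0
  · rw [hK0, Nat.cast_zero, mul_zero]
    positivity
  have hqs : (q : ℝ) ≤ 2 * √(N : ℝ) := by
    have h1 : q ^ 2 ≤ 4 * N := by
      rw [hK] at hK0
      exact ((Nat.div_pos_iff).1 hK0).2
    rw [← Real.sqrt_sq hq0.le, show (2 : ℝ) * √(N : ℝ) = √(4 * N) by
      rw [Real.sqrt_mul (by norm_num), show (4 : ℝ) = 2 ^ 2 by norm_num,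
        Real.sqrt_sq (by norm_num)]]
    exact Real.sqrt_le_sqrt (by exact_mod_cast h1)
  have hsN : (s : ℝ) ≤ 2 * √(N : ℝ) := by
    rw [hs]
    refine (Real.nat_sqrt_le_real_sqrt).trans (le_of_eq ?_)
    rw [Nat.cast_mul, Nat.cast_ofNat, Real.sqrt_mul (by norm_num),
      show (4 : ℝ) = 2 ^ 2 by norm_num, Real.sqrt_sq (by norm_num)]
  have hN1 : 1 ≤ √(N : ℝ) := Real.one_le_sqrt.2 (Nat.one_le_cast.2 hN)
  have hJ' : (J : ℝ) * q ≤ s + 2 := by
    rw [hJ]
    exact_mod_cast Nat.div_mul_le_self (s + 2) q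
  have hK' : (K : ℝ) * (q : ℝ) ^ 2 ≤ 4 * N := by
    rw [hK]
    exact_mod_cast Nat.div_mul_le_self (4 * N) (q ^ 2)
  rw [le_div_iff₀ (by positivity)]
  calc (2 * (J : ℝ) + 1) * K * (q : ℝ) ^ 3
      = (2 * ((J : ℝ) * q) + q) * ((K : ℝ) * (q : ℝ) ^ 2) := by ring
    _ ≤ (10 * √(N : ℝ)) * (4 * N) := mul_le_mul (by linarith) hK' (by positivity) (by positivity)
    _ = _ := by ring

theorem sum_inv_cube_le {u : ℕ} (hu : 1 ≤ u) (N : ℕ) :
    ∑ q ∈ Ioc u N, 1 / (q : ℝ) ^ 3 ≤ 1 / (u : ℝ) ^ 2 := by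
  rcases lt_or_ge N u with h | h
  · rw [Ioc_eq_empty_of_le h.le, sum_empty]
    positivity
  suffices ∑ q ∈ Ioc u N, 1 / (q : ℝ) ^ 3 ≤ 1 / (u : ℝ) ^ 2 - 1 / (N : ℝ) ^ 2 by
    linarith [show (0 : ℝ) ≤ 1 / (N : ℝ) ^ 2 by positivity]
  induction N, h using Nat.le_induction with
  | base => simp
  | succ j hj ih =>
    have hj1 : (1 : ℝ) ≤ j := Nat.one_le_cast.2 (hu.trans hj)
    have : 1 / ((j : ℝ) + 1) ^ 3 ≤ 1 / (j : ℝ) ^ 2 - 1 / ((j : ℝ) + 1) ^ 2 := by
      rw [div_sub_div _ _ (by positivity) (by positivity),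
        div_le_div_iff₀ (by positivity) (by positivity)]
      nlinarith [pow_nonneg (show (0 : ℝ) ≤ j by linarith) 3,
        pow_nonneg (show (0 : ℝ) ≤ j by linarith) 4, sq_nonneg ((j : ℝ) + 1)]
    rw [sum_Ioc_succ_top hj]
    push_cast
    linarith

/-- **Beyond `u` at most `40 N √N / u ^ 2` in all.** -/
theorem card_large_le (hΔ : W.Δ ≠ 0) {N u : ℕ} (hN : 1 ≤ N) (hu : 1 ≤ u) :
    ((((Ioc u N).filter Nat.Prime).biUnion fun q => fullCount W q N).card : ℝ) ≤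
      40 * (N * √(N : ℝ)) / (u : ℝ) ^ 2 := by
  refine (Nat.cast_le.2 card_biUnion_le).trans ?_
  push_cast
  refine (sum_le_sum fun q hq => card_fullCount_le W hΔ (mem_filter.1 hq).2 hN).trans ?_
  rw [sum_congr rfl fun (q : ℕ) _ => div_eq_mul_one_div (40 * ((N : ℝ) * √(N : ℝ))) ((q : ℝ) ^ 3),
    ← mul_sum, div_eq_mul_one_div (40 * ((N : ℝ) * √(N : ℝ))) ((u : ℝ) ^ 2)]
  refine mul_le_mul_of_nonneg_left ((sum_le_sum_of_subset_of_nonneg (filter_subset _ _)
    fun q _ _ => by positivity).trans (sum_inv_cube_le hu N)) (by positivity)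

section

variable [(ratCurve W).IsElliptic]

/-- The order of the image of Galois on the `q`-torsion. -/
def degree (q : ℕ) : ℕ :=
  if h : q = 0 then 1 else
    haveI : NeZero q := ⟨h⟩
    Nat.card (FA.TraceDist.glLevel W q).range

theorem degree_eq (q : ℕ) [NeZero q] : degree W q = Nat.card (FA.TraceDist.glLevel W q).range := by
  rw [degree, dif_neg (NeZero.ne q)]

theorem natCard_gl_le (q : ℕ) [NeZero q] : Nat.card (GL (Fin 2) (ZMod q)) ≤ q ^ 4 := by
  refine (Nat.card_le_card_of_injective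
    (fun g : GL (Fin 2) (ZMod q) => (g : Matrix (Fin 2) (Fin 2) (ZMod q)))
    Units.val_injective).trans (le_of_eq ?_)
  rw [Matrix, Nat.card_fun, Nat.card_fun, Nat.card_zmod, Nat.card_fin, ← pow_mul]

theorem inertia_le_ker_glLevel {q : ℕ} [NeZero q] {p : ℕ} (hp : p.Prime)
    (hgood : W.IsGoodPrimeFor p) (hpq : ¬ p ∣ q) {B : ValuationSubring Qb}
    (hB : B.LiesOverPrime p) :
    B.inertiaSubgroupIn ℚ ≤ (FA.TraceDist.glLevel W q).ker := fun _ hσ =>
  MonoidHom.mem_ker.2 (Units.ext ((FA.TraceDist.repLevel_eq_one_iff _).2 fun x hx =>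
    FA.GaloisRamification.smul_eq_of_good W hp hgood hB hσ q hpq x hx))

/-- **The count at one prime `q` on the Riemann hypothesis.** -/
theorem exists_fullCount_sub_le (hΔ : W.Δ ≠ 0) (hGRH : AllFieldsRH) : ∃ B : ℝ, 0 ≤ B ∧
    ∀ q : ℕ, q.Prime → ∀ N : ℕ, 2 ≤ N →
      |((fullCount W q N).card : ℝ) - logInt N / degree W q| ≤
        B * (1 + Real.log q) * (√(N : ℝ) * Real.log N ^ 4 + 1) := by
  obtain ⟨A, hA, h⟩ := exists_count_of_GRH
  obtain ⟨D, hD⟩ : ∃ D, D = ∑ p ∈ badPrimes W, Real.log p := ⟨_, rfl⟩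
  have hD0 : 0 ≤ D := hD ▸ sum_nonneg fun p _ => Real.log_natCast_nonneg p
  refine ⟨A * (5 + D) + ((badPrimes W).card + 1), by positivity, fun q hq N hN => ?_⟩
  haveI : NeZero q := ⟨hq.ne_zero⟩
  obtain ⟨S, hS⟩ : ∃ S, S = insert q (badPrimes W) := ⟨_, rfl⟩
  have hSq : ∀ p, p ∉ S → p ≠ q ∧ p ∉ badPrimes W := fun p hp => by
    rw [hS, mem_insert, not_or] at hp
    exact hp
  have h1 := h (FA.TraceDist.glLevel W q) FA.TraceDist.isOpen_ker_glLevel hGRH S
    (fun p hp => by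
      rw [hS, mem_insert] at hp
      rcases hp with rfl | hp
      exacts [hq, prime_of_mem_badPrimes W hp])
    (fun p hp hpS B hB => inertia_le_ker_glLevel W hp (good_of_not_mem hΔ hp (hSq p hpS).2).2
      (fun hd => (hSq p hpS).1 ((Nat.prime_dvd_prime_iff_eq hp hq).1 hd)) hB)
    {1} (fun g hg x => by
      rw [Set.mem_singleton_iff] at hg ⊢
      rw [hg, mul_one, mul_inv_cancel])
    (fun p => p ∉ badPrimes W ∧ FullAt W q p)
    (fun p hp hpS B hB σ hσ => by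
      obtain ⟨hpq, hbad⟩ := hSq p hpS
      rw [Set.mem_singleton_iff, ← FA.ReducedGroups.fullAt_iff W hp
        (good_of_not_mem hΔ hp hbad).2
        (fun hd => hpq ((Nat.prime_dvd_prime_iff_eq hp hq).1 hd)) hB hσ]
      exact and_iff_right hbad) N hN
  rw [imageShare_one, ← degree_eq, one_div_mul_eq_div] at h1
  have hn : 0 < degree W q := degree_eq W q ▸ Nat.card_pos
  rw [one_div_mul_cancel (Nat.cast_ne_zero.2 hn.ne'), mul_one] at h1
  refine (le_of_eq_of_le (by rw [fullCount]; congr!) h1).trans ?_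
  have hlq : 0 ≤ Real.log q := Real.log_natCast_nonneg q
  have hln : Real.log (degree W q) ≤ 4 * Real.log q := by
    rw [show (4 : ℝ) = ((4 : ℕ) : ℝ) by norm_num, ← Real.log_pow]
    refine Real.log_le_log (Nat.cast_pos.2 hn) ?_
    rw [← Nat.cast_pow, Nat.cast_le, degree_eq]
    exact (Subgroup.card_le_card_group _).trans (natCard_gl_le q)
  have hsum : ∑ p ∈ S, Real.log p ≤ Real.log q + D := by
    rw [hS, hD]
    by_cases hqb : q ∈ badPrimes W
    · rw [insert_eq_of_mem hqb]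
      linarith
    · rw [sum_insert hqb]
  have hcard : (S.card : ℝ) ≤ (badPrimes W).card + 1 := by
    rw [hS]
    exact_mod_cast card_insert_le q (badPrimes W)
  have hR : 0 ≤ √(N : ℝ) * Real.log N ^ 4 := by
    have := Real.log_natCast_nonneg N
    positivity
  have h2 : A * (2 + Real.log (degree W q) + ∑ p ∈ S, Real.log p) ≤
      A * (5 + D) * (1 + Real.log q) := by
    rw [mul_assoc A]
    refine mul_le_mul_of_nonneg_left ?_ hA
    nlinarith
  nlinarith [mul_le_mul_of_nonneg_right h2 hR,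
    show 0 ≤ A * (5 + D) * (1 + Real.log q) by positivity,
    show 0 ≤ ((badPrimes W).card + 1 : ℝ) * Real.log q by positivity,
    show 0 ≤ ((badPrimes W).card + 1 : ℝ) * (1 + Real.log q) * (√(N : ℝ) * Real.log N ^ 4) by
      positivity]

/-- **`1 / n_q` decays like `q ^ (-5/4)`.** -/
theorem exists_inv_degree_le (hΔ : W.Δ ≠ 0) (hGRH : AllFieldsRH) : ∃ C : ℝ, 0 ≤ C ∧
    ∀ q : ℕ, q.Prime → 1 / (degree W q : ℝ) ≤ C * (q : ℝ) ^ (-(5 / 4) : ℝ) := by
  obtain ⟨B, hB, h⟩ := exists_fullCount_sub_le W hΔ hGRH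
  refine ⟨(4 * 24 * 25) * (40 + B * (81 * 24 ^ 4 + 1)) * 6, by positivity, fun q hq => ?_⟩
  have hN : 8 ≤ q ^ 3 := le_trans (by norm_num) (Nat.pow_le_pow_left hq.two_le 3)
  have h1 := h q hq (q ^ 3) (by omega)
  have h2 := card_fullCount_le W hΔ hq (N := q ^ 3) (by omega)
  obtain ⟨x, hx⟩ : ∃ x : ℝ, x = (q : ℝ) := ⟨_, rfl⟩
  have hx1 : 1 ≤ x := hx ▸ Nat.one_le_cast.2 hq.one_le
  have hx0 : 0 < x := by linarith
  rw [show ((q ^ 3 : ℕ) : ℝ) = x ^ 3 by rw [hx]; push_cast; ring, ← hx] at h1 h2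
  have hsq : √(x ^ 3) = x ^ (3 / 2 : ℝ) := by
    rw [Real.sqrt_eq_rpow, ← Real.rpow_natCast, ← Real.rpow_mul hx0.le]
    norm_num
  rw [hsq, show 40 * (x ^ 3 * x ^ (3 / 2 : ℝ)) / x ^ 3 = 40 * x ^ (3 / 2 : ℝ) by field_simp] at h2
  rw [Real.log_pow, hsq] at h1
  obtain ⟨t, ht⟩ : ∃ t : ℝ, t = x ^ (1 / 24 : ℝ) := ⟨_, rfl⟩
  have ht1 : 1 ≤ t := ht ▸ Real.one_le_rpow hx1 (by norm_num)
  have hlt : Real.log x ≤ 24 * t := by
    have := Real.log_le_rpow_div hx0.le (show (0 : ℝ) < 1 / 24 by norm_num)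
    rw [← ht] at this
    linarith
  obtain ⟨M, hM⟩ : ∃ M : ℝ, M = x ^ (3 / 2 : ℝ) := ⟨_, rfl⟩
  have hM1 : 1 ≤ M := hM ▸ Real.one_le_rpow hx1 (by norm_num)
  rw [← hM] at h1 h2
  have hl : 0 ≤ Real.log x := Real.log_nonneg hx1
  have hl0 : 0 < Real.log x := hx ▸ Real.log_pos (Nat.one_lt_cast.2 hq.one_lt)
  have hli : x ^ 3 / (2 * (3 * Real.log x)) ≤ logInt (x ^ 3) := by
    have h8 : (8 : ℝ) ≤ x ^ 3 := by
      rw [hx]
      exact_mod_cast hN
    refine le_trans ?_ (intervalIntegral.integral_mono_on (f := fun _ => 1 / (3 * Real.log x))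
      (by linarith) intervalIntegrable_const ?_ fun t ht => ?_)
    · rw [intervalIntegral.integral_const, smul_eq_mul, mul_one_div]
      rw [div_le_div_iff₀ (by positivity) (by positivity)]
      nlinarith
    · refine (continuousOn_const.div (Real.continuousOn_log.mono fun t ht => ?_)
        fun t ht => ?_).intervalIntegrable <;> rw [Set.uIcc_of_le (by linarith)] at ht
      · simp only [Set.mem_compl_iff, Set.mem_singleton_iff]
        linarith [ht.1]
      · exact (Real.log_pos (by linarith [ht.1])).ne'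
    · have : 0 < Real.log t := Real.log_pos (by linarith [ht.1])
      rw [show 3 * Real.log x = Real.log (x ^ 3) by rw [Real.log_pow]; norm_num]
      exact one_div_le_one_div_of_le this (Real.log_le_log (by linarith [ht.1]) ht.2)
  have hn : (0 : ℝ) < degree W q := by
    haveI : NeZero q := ⟨hq.ne_zero⟩
    exact Nat.cast_pos.2 (degree_eq W q ▸ Nat.card_pos)
  have h3 : logInt (x ^ 3) / degree W q ≤
      M * (40 + B * (1 + Real.log x) * ((3 * Real.log x) ^ 4 + 1)) := by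
    have := (abs_le.1 h1).1
    push_cast at this
    have h4 : 0 ≤ B * (1 + Real.log x) := by positivity
    nlinarith
  have h4 : x ^ 3 / (2 * (3 * Real.log x)) / degree W q ≤
      M * (40 + B * (1 + Real.log x) * ((3 * Real.log x) ^ 4 + 1)) :=
    (div_le_div_of_nonneg_right hli hn.le).trans h3
  rw [div_div, div_le_iff₀ (by positivity)] at h4
  have hpoly : 6 * Real.log x * (40 + B * (1 + Real.log x) * ((3 * Real.log x) ^ 4 + 1)) ≤
      (4 * 24 * 25) * (40 + B * (81 * 24 ^ 4 + 1)) * 6 * t ^ 6 := by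
    have a1 : 1 + Real.log x ≤ 25 * t := by linarith
    have a2 : (3 * Real.log x) ^ 4 + 1 ≤ (81 * 24 ^ 4 + 1) * t ^ 4 := by
      have b1 : (3 * Real.log x) ^ 4 ≤ (3 * (24 * t)) ^ 4 := by gcongr
      have b2 : 1 ≤ t ^ 4 := one_le_pow₀ ht1
      nlinarith
    calc 6 * Real.log x * (40 + B * (1 + Real.log x) * ((3 * Real.log x) ^ 4 + 1))
        ≤ 6 * (24 * t) * (40 * t ^ 5 + B * (25 * t) * ((81 * 24 ^ 4 + 1) * t ^ 4)) := by
          have : 40 ≤ 40 * t ^ 5 := le_mul_of_one_le_right (by norm_num) (one_le_pow₀ ht1)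
          gcongr
      _ = 6 * 24 * (40 + 25 * B * (81 * 24 ^ 4 + 1)) * t ^ 6 := by ring
      _ ≤ _ := by
          refine mul_le_mul_of_nonneg_right ?_ (by positivity)
          nlinarith
  have hkey : x ^ 3 ≤ M * ((4 * 24 * 25) * (40 + B * (81 * 24 ^ 4 + 1)) * 6 * t ^ 6) *
      degree W q := by
    refine h4.trans (le_of_eq_of_le ?_ (mul_le_mul_of_nonneg_right
      (mul_le_mul_of_nonneg_left hpoly (by linarith)) hn.le))
    ring
  rw [← hx, div_le_iff₀ hn]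
  have hexp : M * t ^ 6 * x ^ (5 / 4 : ℝ) = x ^ 3 := by
    rw [hM, ht, ← Real.rpow_natCast (_ ^ _) 6, ← Real.rpow_mul hx0.le, ← Real.rpow_add hx0,
      ← Real.rpow_add hx0, ← Real.rpow_natCast x 3]
    norm_num
  have hy : 0 < x ^ (5 / 4 : ℝ) := Real.rpow_pos_of_pos hx0 _
  rw [Real.rpow_neg hx0.le, ← mul_le_mul_iff_right₀ (show 0 < M * t ^ 6 * x ^ (5 / 4 : ℝ) by
    positivity), mul_one]
  nth_rw 1 [hexp]
  refine hkey.trans (le_of_eq ?_)
  field_simp

end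

end FA.CyclicRed
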