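import Fermat.Agent.CyclicReductions.Frobenius
import Fermat.Agent.ReducedGroups.Basic
import Fermat.Agent.ModField.Semistable.Chebotarev
import Fermat.Agent.OpenImageJ.KWOdd

/-!
# Independence of a cyclotomic field from a field unramified at its prime

By Minkowski the kernel of a representation unramified at `q` maps onto the units mod `q`. So some
element moves all `ζ_q`, `3 ≤ q`, of a finite set and a given non-trivial `E[2]`; and the share of
the elements trivial on no `E[r]` shrinks at most by `1 - 1 / (q - 1)` when `q` is added.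
-/

set_option autoImplicit false
set_option linter.style.haveILetI false

noncomputable section

open WeierstrassCurve FA.Frob Finset
open FA.RT.Tate (Pts TateBasis exists_tateBasis)
open scoped WeierstrassCurve.Affine Classical

local notation "Qb" => AlgebraicClosure ℚ
local notation "GQ" => AlgebraicClosure ℚ ≃ₐ[ℚ] AlgebraicClosure ℚ

namespace FA.CyclicRed

/-- The cyclotomic character modulo the prime `q`. -/
def chi (q : ℕ) [Fact q.Prime] : GQ →* (ZMod (q ^ 1))ˣ := FA.ModField.cycMod q 1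

theorem chi_surjective (q : ℕ) [Fact q.Prime] : Function.Surjective (chi q) :=
  FA.OpenImageJ.cycMod_surjective q 1

theorem natCard_chi (q : ℕ) [hq : Fact q.Prime] : Nat.card (ZMod (q ^ 1))ˣ = q - 1 := by
  haveI : NeZero (q ^ 1) := ⟨pow_ne_zero _ hq.out.ne_zero⟩
  rw [Nat.card_eq_fintype_card, ZMod.card_units_eq_totient, pow_one, Nat.totient_prime hq.out]

instance finite_units_chi (q : ℕ) [hq : Fact q.Prime] : Finite (ZMod (q ^ 1))ˣ :=
  haveI : NeZero (q ^ 1) := ⟨pow_ne_zero _ hq.out.ne_zero⟩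
  inferInstance

theorem chi_inertia {q : ℕ} [Fact q.Prime] {l : ℕ} (hl : l.Prime) (hlq : l ≠ q)
    {B : ValuationSubring Qb} (hB : B.LiesOverPrime l) :
    B.inertiaSubgroupIn ℚ ≤ (chi q).ker := fun σ hσ => MonoidHom.mem_ker.2 <| by
  show Units.map _ (FA.JTorsion.cycP q σ) = 1
  rw [FA.JTorsion.cycP_inertia q hl hlq hB hσ, map_one]

variable {W : WeierstrassCurve ℤ} [(ratCurve W).IsElliptic]

theorem chi_eq_one_of_glLevel {q : ℕ} [hq : Fact q.Prime] [NeZero q] {σ : GQ}
    (h : FA.TraceDist.glLevel W q σ = 1) : chi q σ = 1 := by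
  obtain ⟨B⟩ := exists_tateBasis (p := q) (W := W)
  have h1 := (FA.TraceDist.repLevel_eq_one_iff (W := W) σ).1 (congrArg Units.val h)
  have h2 := B.rep_congr_one (n := 1) fun x hx => h1 x (by rwa [pow_one] at hx)
  refine Units.ext ?_
  rw [Units.val_one, chi, FA.ModField.coe_cycMod, ← TateBasis.det_rep B σ, RingHom.map_det,
    RingHom.mapMatrix_apply, h2, Matrix.det_one]

/-- **The kernel maps onto the units.** -/
theorem exists_ker_chi_eq {G : Type} [Group G] (φ : GQ →* G) (hopen : IsOpen (φ.ker : Set GQ))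
    {q : ℕ} [hq : Fact q.Prime] (h : ∀ B : ValuationSubring Qb, B.LiesOverPrime q →
      B.inertiaSubgroupIn ℚ ≤ φ.ker) (σ : GQ) : ∃ τ, φ τ = 1 ∧ chi q τ = chi q σ := by
  obtain ⟨H, hH⟩ : ∃ H, H = (φ.ker.map (chi q)).comap (chi q) := ⟨_, rfl⟩
  haveI : H.Normal := hH ▸ Subgroup.Normal.comap inferInstance (chi q)
  let E : IntermediateField ℚ Qb := IntermediateField.fixedField φ.ker
  have hE : E.fixingSubgroup = φ.ker :=
    InfiniteGalois.fixingSubgroup_fixedField ⟨φ.ker, Subgroup.isClosed_of_isOpen _ hopen⟩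
  haveI : FiniteDimensional ℚ E :=
    (InfiniteGalois.isOpen_iff_finite E).mp (by rw [hE]; exact hopen)
  have hle : φ.ker ≤ H := hH ▸ Subgroup.le_comap_map _ _
  have htop : H = ⊤ := FA.Local.eq_top_of_inertia_le H E
    (fun τ hτ => hle (hE ▸ (IntermediateField.mem_fixingSubgroup_iff E τ).2 hτ)) fun l hl => by
      obtain ⟨B, hB⟩ := FA.Deform.exists_liesOverPrime hl
      refine ⟨B, hB, fun τ hτ => ?_⟩
      rcases eq_or_ne l q with rfl | hlq
      · exact hle (h B hB hτ)
      · rw [hH, Subgroup.mem_comap, MonoidHom.mem_ker.1 (chi_inertia hl hlq hB hτ)]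
        exact one_mem _
  have hσ : σ ∈ H := htop ▸ Subgroup.mem_top σ
  rw [hH, Subgroup.mem_comap, Subgroup.mem_map] at hσ
  exact hσ

theorem isOpen_ker_chi (q : ℕ) [Fact q.Prime] : IsOpen ((chi q).ker : Set GQ) := by
  obtain ⟨L, hL, h⟩ := FA.JTorsion.exists_field_cycP q 1
  exact Subgroup.isOpen_mono (H₁ := L.fixingSubgroup) (fun σ hσ => MonoidHom.mem_ker.2
    (Units.ext (h σ fun a ha => (IntermediateField.mem_fixingSubgroup_iff L σ).1 hσ a ha)))
    (IntermediateField.fixingSubgroup_isOpen L)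

/-- An element moving every `ζ_q`, and off the values of `σ`. -/
theorem exists_avoiding (R : Finset ℕ) : (∀ q ∈ R, q.Prime ∧ 3 ≤ q) → ∀ σ : GQ,
    (∀ q ∈ R, ∀ [Fact q.Prime], q = 3 → chi q σ = 1) →
      ∃ a : GQ, ∀ q ∈ R, ∀ [Fact q.Prime], chi q a ≠ 1 ∧ chi q a ≠ chi q σ := by
  induction R using Finset.induction with
  | empty => exact fun _ _ _ => ⟨1, by simp⟩
  | @insert q R hqR ih =>
    intro hR σ hσ
    obtain ⟨a, ha⟩ := ih (fun r hr => hR r (mem_insert_of_mem hr)) σ
      fun r hr => hσ r (mem_insert_of_mem hr)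
    haveI := Fact.mk (hR q (mem_insert_self q R)).1
    haveI := Fintype.ofFinite (ZMod (q ^ 1))ˣ
    obtain ⟨v, hv⟩ : ∃ v : (ZMod (q ^ 1))ˣ, v ∉ ({1, chi q σ} : Finset _) := by
      by_contra hall
      push Not at hall
      have h1 : Fintype.card (ZMod (q ^ 1))ˣ ≤ ({1, chi q σ} : Finset (ZMod (q ^ 1))ˣ).card := by
        rw [← card_univ]
        exact card_le_card fun x _ => hall x
      rw [← Nat.card_eq_fintype_card, natCard_chi] at h1
      have h3 := (hR q (mem_insert_self q R)).2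
      rcases eq_or_ne q 3 with hq3 | hq3
      · rw [hσ q (mem_insert_self q R) hq3, insert_eq_of_mem (mem_singleton_self 1),
          card_singleton] at h1
        omega
      · have := (card_le_two : ({1, chi q σ} : Finset (ZMod (q ^ 1))ˣ).card ≤ 2)
        omega
    rw [mem_insert, mem_singleton, not_or] at hv
    haveI : ∀ r : R, Fact (r : ℕ).Prime := fun r => ⟨(hR r (mem_insert_of_mem r.2)).1⟩
    obtain ⟨σ₁, hσ₁⟩ := chi_surjective q v
    obtain ⟨τ, hτ, hτq⟩ := exists_ker_chi_eq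
      (MonoidHom.pi fun r : R => chi (r : ℕ))
      (by
        have e : ((MonoidHom.pi fun r : R => chi (r : ℕ)).ker : Set GQ) =
            ⋂ r : R, ((chi (r : ℕ)).ker : Set GQ) := by
          ext τ; simp [funext_iff]
        rw [e]
        exact isOpen_iInter_of_finite fun r => isOpen_ker_chi (r : ℕ))
      (q := q) (fun B hB τ hτ => MonoidHom.mem_ker.2 (funext fun r =>
        MonoidHom.mem_ker.1 (chi_inertia (Fact.out : q.Prime)
          (fun e => hqR (by rw [e]; exact r.2)) hB hτ))) (a⁻¹ * σ₁)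
    refine ⟨a * τ, fun r hr hfr => ?_⟩
    rcases eq_or_ne r q with rfl | hrq
    · rw [map_mul, hτq, map_mul, map_inv, mul_inv_cancel_left, hσ₁]
      exact hv
    · have hrR : r ∈ R := (mem_insert.1 hr).resolve_left hrq
      have h1 : chi r τ = 1 := congrFun hτ ⟨r, hrR⟩
      rw [map_mul, h1, mul_one]
      exact ha r hrR

/-- **An element moving `E[2]` and every `ζ_q`**, if any moves `E[2]`. -/
theorem exists_seed (R : Finset ℕ) (hR : ∀ q ∈ R, q.Prime ∧ 3 ≤ q)
    (h2 : ∃ σ : GQ, FA.TraceDist.glLevel W 2 σ ≠ 1) :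
    ∃ σ : GQ, FA.TraceDist.glLevel W 2 σ ≠ 1 ∧ ∀ q ∈ R, ∀ [Fact q.Prime], chi q σ ≠ 1 := by
  by_contra hall
  push Not at hall
  have hmem : ∀ a : GQ, (∀ q ∈ R, ∀ [Fact q.Prime], chi q a ≠ 1) →
      FA.TraceDist.glLevel W 2 a = 1 := fun a ha => by
    by_contra hne
    obtain ⟨q, hq, hf, h⟩ := hall a hne
    exact @ha q hq hf h
  have key : ∀ σ : GQ, (∀ q ∈ R, ∀ [Fact q.Prime], q = 3 → chi q σ = 1) →
      FA.TraceDist.glLevel W 2 σ = 1 := fun σ hσ => by
    obtain ⟨a, ha⟩ := exists_avoiding R hR σ hσ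
    have h1 := hmem a fun q hq hf => (ha q hq).1
    have h2' := hmem (a⁻¹ * σ) fun q hq hf e => (ha q hq).2 (by
      rw [map_mul, map_inv, inv_mul_eq_one] at e
      exact e)
    rw [← mul_inv_cancel_left a σ, map_mul, h1, h2', mul_one]
  obtain ⟨c, hc⟩ := exists_avoiding R hR 1 fun q _ _ _ => map_one _
  have hc2 := hmem c fun q hq hf => (hc q hq).1
  obtain ⟨σ, hσ⟩ := h2
  refine hσ ?_
  by_cases h3 : ∀ q ∈ R, ∀ [Fact q.Prime], q = 3 → chi q σ = 1
  · exact key σ h3
  push Not at h3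
  obtain ⟨r, hr, hfr, hr3, hσ3⟩ := h3
  have h := key (c * σ) fun q hq hf hq3 => by
    subst hr3 hq3
    have hcard : Nat.card (ZMod (3 ^ 1))ˣ = 2 := natCard_chi 3
    have hu := (hc 3 hq).1
    haveI := Fintype.ofFinite (ZMod (3 ^ 1))ˣ
    rw [Nat.card_eq_fintype_card] at hcard
    rw [map_mul]
    by_contra hne
    have h3' : ({1, chi 3 c, chi 3 c * chi 3 σ} : Finset (ZMod (3 ^ 1))ˣ).card = 3 := by
      rw [card_insert_of_notMem, card_pair]
      · intro e
        exact hσ3 (mul_eq_left.1 e.symm)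
      · rw [mem_insert, mem_singleton, not_or]
        exact ⟨hu.symm, Ne.symm hne⟩
    have := card_le_univ ({1, chi 3 c, chi 3 c * chi 3 σ} : Finset (ZMod (3 ^ 1))ˣ)
    omega
  rwa [map_mul, hc2, one_mul] at h

end FA.CyclicRed

namespace FA.CyclicRed

section share

variable {G G' : Type} [Group G] [Group G'] [Finite G]

/-- A larger share above. -/
theorem imageShare_le_of_ker_le (ψ : GQ →* G) (π : GQ →* G') (hker : ψ.ker ≤ π.ker) {X : Set G}
    {Y : Set G'} (h : ∀ σ, π σ ∈ Y → ψ σ ∈ X) : imageShare π Y ≤ imageShare ψ X := by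
  obtain ⟨f, hf⟩ : ∃ f : ψ.range →* π.range, ∀ σ, f (ψ.rangeRestrict σ) = π.rangeRestrict σ :=
    ⟨ψ.rangeRestrict.liftOfSurjective ψ.rangeRestrict_surjective ⟨π.rangeRestrict, by
      rw [MonoidHom.ker_rangeRestrict, MonoidHom.ker_rangeRestrict]; exact hker⟩,
      MonoidHom.liftOfRightInverse_comp_apply _ _ _ _⟩
  have hsurj : Function.Surjective f := fun b => by
    obtain ⟨σ, hσ⟩ := π.rangeRestrict_surjective b
    exact ⟨_, (hf σ).trans hσ⟩
  choose s hs using hsurj
  have hfin : Finite π.range := Finite.of_surjective f fun b => ⟨s b, hs b⟩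
  have hall : Nat.card ψ.range = Nat.card π.range * Nat.card f.ker := by
    rw [← Nat.card_prod]
    exact Nat.card_congr
      { toFun := fun a => (f a, ⟨(s (f a))⁻¹ * a, by
          rw [MonoidHom.mem_ker, map_mul, map_inv, hs, inv_mul_cancel]⟩)
        invFun := fun x => s x.1 * x.2
        left_inv := fun a => mul_inv_cancel_left _ _
        right_inv := fun x => by
          have e : f (s x.1 * x.2) = x.1 := by
            rw [map_mul, hs, MonoidHom.mem_ker.1 x.2.2, mul_one]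
          exact Prod.ext e (Subtype.ext (by simp only [e, inv_mul_cancel_left])) }
  have hsub : Nat.card ({b : π.range // (b : G') ∈ Y} × f.ker) ≤
      Nat.card {a : ψ.range // (a : G) ∈ X} := by
    refine Nat.card_le_card_of_injective (fun x => ⟨s x.1.1 * x.2, ?_⟩) fun x x' e => ?_
    · obtain ⟨σ, hσ⟩ := ψ.rangeRestrict_surjective (s x.1.1 * x.2)
      rw [← hσ]
      refine h σ ?_
      have h1 : f (s x.1.1 * x.2) = x.1.1 := by
        rw [map_mul, hs, MonoidHom.mem_ker.1 x.2.2, mul_one]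
      rw [← hσ, hf] at h1
      have h2 : (π σ : G') = (x.1.1 : G') := congrArg Subtype.val h1
      rw [h2]
      exact x.1.2
    · have e' : s x.1.1 * (x.2 : ψ.range) = s x'.1.1 * x'.2 := congrArg Subtype.val e
      have e1 := congrArg f e'
      rw [map_mul, map_mul, hs, hs, MonoidHom.mem_ker.1 x.2.2, MonoidHom.mem_ker.1 x'.2.2,
        mul_one, mul_one] at e1
      rw [e1] at e'
      exact Prod.ext (Subtype.ext e1) (Subtype.ext (mul_left_cancel e'))
  rw [Nat.card_prod] at hsub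
  have hk : (0 : ℝ) < Nat.card f.ker := Nat.cast_pos.2 Nat.card_pos
  rw [imageShare, imageShare, hall, Nat.cast_mul,
    ← mul_div_mul_right _ (Nat.card π.range : ℝ) hk.ne']
  refine div_le_div_of_nonneg_right ?_ (by positivity)
  exact_mod_cast hsub

omit [Finite G] in
/-- **With a cyclotomic factor**: the share is multiplied by `(q - 2) / (q - 1)`. -/
theorem imageShare_prod_chi (φ : GQ →* G) (hopen : IsOpen (φ.ker : Set GQ)) {q : ℕ}
    [hq : Fact q.Prime] (h : ∀ B : ValuationSubring Qb, B.LiesOverPrime q →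
      B.inertiaSubgroupIn ℚ ≤ φ.ker) (X : Set G) :
    imageShare (φ.prod (chi q)) {x | x.1 ∈ X ∧ x.2 ≠ 1} =
      imageShare φ X * (1 - 1 / ((q : ℝ) - 1)) := by
  have hmem : ∀ (r : φ.range) (u : (ZMod (q ^ 1))ˣ),
      ((r : G), u) ∈ (φ.prod (chi q)).range := fun r u => by
    obtain ⟨σ, hσ⟩ := r.2
    obtain ⟨σ₁, hσ₁⟩ := chi_surjective q u
    obtain ⟨τ, hτ, hτq⟩ := exists_ker_chi_eq φ hopen h (σ⁻¹ * σ₁)
    refine ⟨σ * τ, Prod.ext ?_ ?_⟩
    · show φ (σ * τ) = r
      rw [map_mul, hτ, mul_one, hσ]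
    · show chi q (σ * τ) = u
      rw [map_mul, hτq, map_mul, map_inv, mul_inv_cancel_left, hσ₁]
  let e : (φ.prod (chi q)).range ≃ φ.range × (ZMod (q ^ 1))ˣ :=
    { toFun := fun x => (⟨x.1.1, by obtain ⟨σ, hσ⟩ := x.2; exact ⟨σ, congrArg Prod.fst hσ⟩⟩,
        x.1.2)
      invFun := fun y => ⟨((y.1 : G), y.2), hmem y.1 y.2⟩
      left_inv := fun x => rfl
      right_inv := fun y => rfl }
  haveI := Fintype.ofFinite (ZMod (q ^ 1))ˣ
  have h1 : Nat.card {x : (φ.prod (chi q)).range //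
      (x : G × (ZMod (q ^ 1))ˣ) ∈ {x : G × (ZMod (q ^ 1))ˣ | x.1 ∈ X ∧ x.2 ≠ 1}} =
      Nat.card {r : φ.range // (r : G) ∈ X} * (q - 2) := by
    refine (Nat.card_congr ((e.subtypeEquiv (q := fun y : φ.range × (ZMod (q ^ 1))ˣ =>
        (y.1 : G) ∈ X ∧ y.2 ≠ 1) fun x => Iff.rfl).trans
      (Equiv.subtypeProdEquivProd (p := fun r : φ.range => (r : G) ∈ X)
        (q := fun u : (ZMod (q ^ 1))ˣ => u ≠ 1)))).trans ?_
    rw [Nat.card_prod]
    congr 1
    rw [← Nat.card_congr (Equiv.refl {u : (ZMod (q ^ 1))ˣ // u ≠ 1}), Nat.card_eq_fintype_card,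
      Fintype.card_subtype_compl, Fintype.card_subtype_eq, ← Nat.card_eq_fintype_card, natCard_chi]
    omega
  have h2 : Nat.card (φ.prod (chi q)).range = Nat.card φ.range * (q - 1) := by
    rw [Nat.card_congr e, Nat.card_prod, natCard_chi]
  rw [imageShare, imageShare, h1, h2, Nat.cast_mul, Nat.cast_mul, mul_div_mul_comm,
    Nat.cast_sub hq.out.two_le, Nat.cast_sub hq.out.one_le, Nat.cast_ofNat, Nat.cast_one]
  congr 1
  have : (2 : ℝ) ≤ q := Nat.ofNat_le_cast.2 hq.out.two_le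
  rw [one_sub_div (by linarith)]
  ring_nf

end share

end FA.CyclicRed

end
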