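import Fermat.Agent.ChebotarevGRH.Main
import Fermat.Agent.ArtinHooley.Sieve
import Fermat.Agent.Faltings.Hermite
import Fermat.Agent.Root.SummaryChebotarev

/-!
# Chebotarev on the Riemann hypothesis for a representation of the absolute Galois group

A homomorphism of `Gal(ℚ̄/ℚ)` to a finite group with open kernel, unramified outside `S`, has a
field of degree `n` with `log |d| ≤ n (log n + ∑_{p ∈ S} log p)`; so on the Riemann hypothesis the
primes outside `S` with Frobenius in a given share `c` number `c li x` up to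
`c n (2 + log n + ∑ log p) √x log ^ 4 x`.
-/

set_option autoImplicit false
set_option linter.style.haveILetI false

noncomputable section

open NumberField IsDedekindDomain Module Finset
open FA.ArtinHooley (FieldRH fieldSize logInt)
open FA.NaturalChebotarev (countIn someFrobSet)
open FA.ChebError (share)
open FA.Hecke (primesLE mem_primesLE)
open scoped Classical Pointwise

local notation "Qb" => AlgebraicClosure ℚ
local notation "GQ" => AlgebraicClosure ℚ ≃ₐ[ℚ] AlgebraicClosure ℚ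

namespace FA.CyclicRed

/-- The Riemann hypothesis for every number field. -/
def AllFieldsRH : Prop := ∀ (K : Type) [Field K] [NumberField K], FieldRH K

variable {G : Type} [Group G]

/-- The share of `X` in the image of `ρ`. -/
def imageShare (ρ : GQ →* G) (X : Set G) : ℝ :=
  (Nat.card {g : ρ.range // (g : G) ∈ X} : ℝ) / Nat.card ρ.range

theorem imageShare_nonneg (ρ : GQ →* G) (X : Set G) : 0 ≤ imageShare ρ X :=
  div_nonneg (Nat.cast_nonneg _) (Nat.cast_nonneg _)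

theorem imageShare_le_one [Finite G] (ρ : GQ →* G) (X : Set G) : imageShare ρ X ≤ 1 :=
  (div_le_one (Nat.cast_pos.2 Nat.card_pos)).2 (Nat.cast_le.2
    (Nat.card_le_card_of_injective _ Subtype.val_injective))

theorem imageShare_one [Finite G] (ρ : GQ →* G) :
    imageShare ρ {1} = 1 / Nat.card ρ.range := by
  haveI : Unique {g : ρ.range // (g : G) ∈ ({1} : Set G)} :=
    ⟨⟨⟨1, rfl⟩⟩, fun g => Subtype.ext (Subtype.ext (Set.mem_singleton_iff.1 g.2))⟩
  rw [imageShare, Nat.card_unique, Nat.cast_one]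

/-- The place of `ℚ` over a prime number is unique. -/
theorem eq_span_of_mem {p : ℕ} (hp : p.Prime) {I : Ideal (𝓞 ℚ)} (hI : I ≠ ⊤)
    (hpI : (p : 𝓞 ℚ) ∈ I) : I = Ideal.span {(p : 𝓞 ℚ)} := by
  have h1 : Ideal.absNorm (Ideal.span {(p : 𝓞 ℚ)}) = p := by
    rw [Ideal.absNorm_span_singleton, show (p : 𝓞 ℚ) = algebraMap ℤ (𝓞 ℚ) p by simp,
      Algebra.norm_algebraMap]
    simp [RingOfIntegers.rank]
  have hmax : (Ideal.span {(p : 𝓞 ℚ)}).IsMaximal :=
    (Ideal.isPrime_of_irreducible_absNorm (by rw [h1]; exact hp)).isMaximal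
      (by simp [hp.ne_zero])
  exact (hmax.eq_of_le hI ((Ideal.span_singleton_le_iff_mem _).2 hpI)).symm

theorem absNorm_injective : Function.Injective
    fun v : HeightOneSpectrum (𝓞 ℚ) => Ideal.absNorm v.asIdeal := fun v w e => by
  have hp := FA.Chebotarev.absNorm_prime v
  refine HeightOneSpectrum.ext ((eq_span_of_mem hp v.isPrime.ne_top (Ideal.absNorm_mem _)).trans
    (eq_span_of_mem hp w.isPrime.ne_top ?_).symm)
  rw [show Ideal.absNorm v.asIdeal = Ideal.absNorm w.asIdeal from e]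
  exact Ideal.absNorm_mem _

/-- Off the ramified primes the Frobenius classes are those of the elements of `ℚ̄`. -/
theorem mem_someFrobSet_iff {F : Type} [Field F] [NumberField F] [IsGalois ℚ F] [Algebra F Qb]
    [IsScalarTower ℚ F Qb] {C : Set (F ≃ₐ[ℚ] F)} (hC : ∀ g ∈ C, ∀ x, x * g * x⁻¹ ∈ C)
    {v : HeightOneSpectrum (𝓞 ℚ)} {p : ℕ} (hv : Ideal.absNorm v.asIdeal = p)
    (hun : ∀ P : Ideal (𝓞 F), P.IsMaximal → (p : 𝓞 F) ∈ P →
      ∀ τ : F ≃ₐ[ℚ] F, (∀ y : 𝓞 F, τ • y - y ∈ P) → τ = 1)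
    {A : ValuationSubring Qb} (hA : A.LiesOverPrime p) {σ : GQ} (hσ : A.IsFrobeniusAt σ p) :
    v ∈ someFrobSet ℚ F C ↔ σ.restrictNormal F ∈ C := by
  have hp : p.Prime := hv ▸ FA.Chebotarev.absNorm_prime v
  have hpv : (p : 𝓞 ℚ) ∈ v.asIdeal := hv ▸ Ideal.absNorm_mem v.asIdeal
  obtain ⟨P, hP⟩ := FA.Chebotarev.exists_isFrobPair_restrict (F := F) hp hun hA hσ
  have hcard : ∀ Q : Ideal (𝓞 F), Q.IsMaximal → (p : 𝓞 F) ∈ Q →
      Nat.card (ℤ ⧸ Q.under ℤ) = p ∧ Q.under (𝓞 ℚ) = v.asIdeal ∧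
        Nat.card (𝓞 ℚ ⧸ Q.under (𝓞 ℚ)) = p := fun Q hQ hpQ => by
    have hu : Q.under (𝓞 ℚ) = v.asIdeal :=
      (eq_span_of_mem hp (Ideal.comap_ne_top _ hQ.ne_top)
        (Ideal.mem_comap.2 (by rwa [map_natCast]))).trans
        (eq_span_of_mem hp v.isPrime.ne_top hpv).symm
    refine ⟨FA.FrobeniusDensity.card_quotient_under hp hQ.ne_top hpQ, hu, ?_⟩
    rw [hu, ← Submodule.cardQuot_apply, ← Ideal.absNorm_apply, hv]
  constructor
  · rintro ⟨Q, hQ, hQv, τ, hτC, hτ⟩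
    have hpQ : (p : 𝓞 F) ∈ Q := by
      rw [← hQv, Ideal.mem_comap, map_natCast] at hpv
      exact hpv
    obtain ⟨h1, -, h3⟩ := hcard Q hQ hpQ
    obtain ⟨x, hx⟩ := isConj_iff.1 (FA.Chebotarev.isConj_of_isFrobPair hP hQ hpQ (τ := τ)
      fun y => by
        have h := hτ y
        rw [h3] at h
        rw [h1]
        exact h).symm
    rw [← hx]
    exact hC _ hτC _
  · intro hmem
    obtain ⟨h1, h2, h3⟩ := hcard P hP.isMaximal hP.mem
    refine ⟨P, hP.isMaximal, h2, _, hmem, fun y => ?_⟩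
    have h := FA.FrobeniusDensity.IsFrobPair.isArithFrobAt hP y
    rw [h1] at h
    rw [h3]
    exact h

/-- The primes up to `N` outside `S` are those of `ℚ` of norm at most `N`, outside `S`. -/
theorem abs_card_sub_countIn_le (T : Set (HeightOneSpectrum (𝓞 ℚ))) (S : Finset ℕ) (P : ℕ → Prop)
    (h : ∀ v : HeightOneSpectrum (𝓞 ℚ), Ideal.absNorm v.asIdeal ∉ S →
      (v ∈ T ↔ P (Ideal.absNorm v.asIdeal))) (N : ℕ) :
    |((((Icc 1 N).filter fun p => p.Prime ∧ P p).card : ℕ) : ℝ) - countIn T (N : ℝ)| ≤ S.card := by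
  obtain ⟨U, hU⟩ : ∃ U : Finset ℕ, U = (Icc 1 N).filter fun p => p.Prime ∧ P p := ⟨_, rfl⟩
  obtain ⟨V, hV⟩ : ∃ V : Finset ℕ,
      V = ((primesLE ℚ N).filter (· ∈ T)).image fun v => Ideal.absNorm v.asIdeal := ⟨_, rfl⟩
  have hcard : countIn T (N : ℝ) = V.card := by
    rw [hV, card_image_of_injective _ absNorm_injective, countIn, Nat.floor_natCast]
  have hmem : ∀ p, p ∉ S → (p ∈ U ↔ p ∈ V) := fun p hpS => by
    rw [hU, hV, mem_filter, mem_Icc, mem_image]
    constructor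
    · rintro ⟨⟨-, hpN⟩, hp, hP⟩
      obtain ⟨v, hv⟩ := FA.Chebotarev.exists_absNorm_eq hp
      exact ⟨v, mem_filter.2 ⟨mem_primesLE.2 (hv ▸ hpN), (h v (hv ▸ hpS)).2 (hv ▸ hP)⟩, hv⟩
    · rintro ⟨v, hv, rfl⟩
      rw [mem_filter, mem_primesLE] at hv
      exact ⟨⟨(FA.Chebotarev.absNorm_prime v).one_le, hv.1⟩, FA.Chebotarev.absNorm_prime v,
        (h v hpS).1 hv.2⟩
  have h1 : U ⊆ V ∪ S := fun p hp => by
    rw [mem_union]
    by_cases hpS : p ∈ S
    exacts [Or.inr hpS, Or.inl ((hmem p hpS).1 hp)]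
  have h2 : V ⊆ U ∪ S := fun p hp => by
    rw [mem_union]
    by_cases hpS : p ∈ S
    exacts [Or.inr hpS, Or.inl ((hmem p hpS).2 hp)]
  have e1 : (U.card : ℝ) ≤ V.card + S.card := by
    exact_mod_cast (card_le_card h1).trans (card_union_le _ _)
  have e2 : (V.card : ℝ) ≤ U.card + S.card := by
    exact_mod_cast (card_le_card h2).trans (card_union_le _ _)
  rw [← hU, hcard, abs_le]
  constructor <;> linarith

/-- **Chebotarev on the Riemann hypothesis for a representation.** -/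
theorem exists_count_of_GRH : ∃ A : ℝ, 0 ≤ A ∧
    ∀ {G : Type} [Group G] [Finite G] (ρ : GQ →* G), IsOpen (ρ.ker : Set GQ) → AllFieldsRH →
    ∀ S : Finset ℕ, (∀ p ∈ S, p.Prime) →
    (∀ p : ℕ, p.Prime → p ∉ S → ∀ B : ValuationSubring Qb, B.LiesOverPrime p →
      B.inertiaSubgroupIn ℚ ≤ ρ.ker) →
    ∀ X : Set G, (∀ g ∈ X, ∀ x, x * g * x⁻¹ ∈ X) → ∀ P : ℕ → Prop,
    (∀ p : ℕ, p.Prime → p ∉ S → ∀ B : ValuationSubring Qb, B.LiesOverPrime p →
      ∀ σ : GQ, B.IsFrobeniusAt σ p → (P p ↔ ρ σ ∈ X)) →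
    ∀ N : ℕ, 2 ≤ N →
    |((((Icc 1 N).filter fun p => p.Prime ∧ P p).card : ℕ) : ℝ) - imageShare ρ X * logInt N| ≤
      A * (imageShare ρ X * Nat.card ρ.range) *
        (2 + Real.log (Nat.card ρ.range) + ∑ p ∈ S, Real.log p) * (√N * Real.log N ^ 4) +
      S.card := by
  obtain ⟨A, hA, hcount⟩ := FA.ChebGRH.exists_countF_le.{0, 0}
  refine ⟨A, hA, fun {G} _ _ ρ hopen hGRH S hS hun X hX P hP N hN => ?_⟩
  let F : IntermediateField ℚ Qb := IntermediateField.fixedField ρ.ker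
  have hFN : F.fixingSubgroup = ρ.ker :=
    InfiniteGalois.fixingSubgroup_fixedField ⟨ρ.ker, Subgroup.isClosed_of_isOpen _ hopen⟩
  have hFnorm : F.fixingSubgroup.Normal := hFN.symm ▸ MonoidHom.normal_ker ρ
  have hFgal : IsGalois ℚ F := (InfiniteGalois.normal_iff_isGalois F).mp hFnorm
  haveI : FiniteDimensional ℚ F :=
    (InfiniteGalois.isOpen_iff_finite F).mp (by rw [hFN]; exact hopen)
  haveI : NumberField F := { }
  let res : GQ →* (F ≃ₐ[ℚ] F) := AlgEquiv.restrictNormalHom F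
  have hres : res.ker = ρ.rangeRestrict.ker :=
    ((IntermediateField.restrictNormalHom_ker F).trans hFN).trans
      ρ.ker_rangeRestrict.symm
  have hres_surj : Function.Surjective res :=
    AlgEquiv.restrictNormalHom_surjective (F := ℚ) (K₁ := F) Qb
  let φ : (F ≃ₐ[ℚ] F) →* ρ.range := res.liftOfSurjective hres_surj ⟨ρ.rangeRestrict, hres.le⟩
  have hφ : ∀ g : GQ, φ (res g) = ρ.rangeRestrict g :=
    MonoidHom.liftOfRightInverse_comp_apply _ _ _ ⟨ρ.rangeRestrict, hres.le⟩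
  have hφb : Function.Bijective φ := by
    refine ⟨(injective_iff_map_eq_one φ).mpr fun z hz => ?_, fun r => ?_⟩
    · obtain ⟨g, rfl⟩ := hres_surj z
      rw [hφ] at hz
      rw [← MonoidHom.mem_ker, hres]
      exact hz
    · obtain ⟨g, hg⟩ := ρ.rangeRestrict_surjective r
      exact ⟨res g, (hφ g).trans hg⟩
  obtain ⟨C, hC⟩ : ∃ C : Set (F ≃ₐ[ℚ] F), C = {g | (φ g : G) ∈ X} := ⟨_, rfl⟩
  have hCconj : ∀ g ∈ C, ∀ x, x * g * x⁻¹ ∈ C := by
    rw [hC]
    intro g hg x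
    show (φ (x * g * x⁻¹) : G) ∈ X
    rw [map_mul, map_mul, map_inv, Subgroup.coe_mul, Subgroup.coe_mul, Subgroup.coe_inv]
    exact hX _ hg _
  have hn : Nat.card (F ≃ₐ[ℚ] F) = Nat.card ρ.range :=
    Nat.card_congr (Equiv.ofBijective φ hφb)
  have hshare : share C = imageShare ρ X := by
    rw [share, imageShare, hn]
    congr 2
    rw [hC]
    exact Nat.card_congr ((Equiv.ofBijective φ hφb).subtypeEquiv fun _ => Iff.rfl)
  have hfin : finrank ℚ F = Nat.card ρ.range := (IsGalois.card_aut_eq_finrank ℚ F).symm.trans hn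
  have hfix : ∀ q : ℕ, q.Prime → q ∉ S → ∀ B : ValuationSubring Qb, B.LiesOverPrime q →
      B.inertiaSubgroupIn ℚ ≤ F.fixingSubgroup := fun q hq hqS B hB => hFN ▸ hun q hq hqS B hB
  have hdiscr := FA.Faltings.natAbs_discr_le (K := F) hS fun q Q _ hq hqS hqQ =>
    FA.Faltings.isUnramifiedAt_of_inertia_le F hq (hfix q hq hqS) Q hqQ
  obtain ⟨n, hndef⟩ : ∃ n, n = Nat.card ρ.range := ⟨_, rfl⟩
  rw [hfin, ← hndef] at hdiscr
  have hn1 : (1 : ℝ) ≤ n := hndef ▸ Nat.one_le_cast.2 Nat.card_pos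
  have hsize : fieldSize F ≤ n * (2 + Real.log n + ∑ p ∈ S, Real.log p) := by
    have hprod : ((∏ p ∈ S, p : ℕ) : ℝ) ≠ 0 :=
      Nat.cast_ne_zero.2 (prod_ne_zero_iff.2 fun p hp => (hS p hp).ne_zero)
    have h1 : Real.log (((discr F).natAbs : ℕ) : ℝ) ≤
        n * (Real.log n + ∑ p ∈ S, Real.log p) := by
      refine (Real.log_le_log (Nat.cast_pos.2 (Int.natAbs_pos.2 (discr_ne_zero _)))
        (Nat.cast_le.2 hdiscr)).trans (le_of_eq ?_)
      rw [Nat.cast_pow, Real.log_pow, Nat.cast_mul, Real.log_mul (by linarith) hprod,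
        Nat.cast_prod, Real.log_prod fun p hp => Nat.cast_ne_zero.2 (hS p hp).ne_zero]
    rw [fieldSize, hfin, ← hndef]
    linarith
  have hN2 : (2 : ℝ) ≤ N := by exact_mod_cast hN
  have h1 := hcount (hGRH F) C hCconj N hN2
  rw [hshare] at h1
  have h2 := abs_card_sub_countIn_le (someFrobSet ℚ F C) S P (fun v hvS => ?_) N
  swap
  · obtain ⟨p, hv⟩ : ∃ p, Ideal.absNorm v.asIdeal = p := ⟨_, rfl⟩
    have hp : p.Prime := hv ▸ FA.Chebotarev.absNorm_prime v
    rw [hv] at hvS ⊢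
    obtain ⟨B, hB⟩ := FA.Deform.exists_liesOverPrime hp
    obtain ⟨σ, hσ⟩ := FA.Deform.exists_isFrobeniusAt hp hB
    rw [hP p hp hvS B hB σ hσ, mem_someFrobSet_iff hCconj hv ?_ hB hσ, hC]
    · show (φ (res σ) : G) ∈ X ↔ _
      rw [hφ]
      exact Iff.rfl
    · intro Q hQ hpQ τ hτ
      haveI := hQ
      obtain ⟨B', hB', σ', hσ', hστ⟩ := FA.Ext.exists_inertia_lift F Q hp hpQ τ hτ
      refine AlgEquiv.ext fun y => Subtype.ext ?_
      rw [← hστ y]
      exact hfix p hp hvS B' hB' hσ' y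
  have h3 : A * imageShare ρ X * fieldSize F * (√(N : ℝ) * Real.log N ^ 4) ≤
      A * (imageShare ρ X * n) * (2 + Real.log n + ∑ p ∈ S, Real.log p) *
        (√(N : ℝ) * Real.log N ^ 4) := by
    refine mul_le_mul_of_nonneg_right ?_ (by
      have := Real.log_nonneg (show (1 : ℝ) ≤ N by linarith)
      positivity)
    rw [show A * (imageShare ρ X * n) * (2 + Real.log n + ∑ p ∈ S, Real.log p) =
      A * imageShare ρ X * (n * (2 + Real.log n + ∑ p ∈ S, Real.log p)) by ring]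
    exact mul_le_mul_of_nonneg_left hsize (mul_nonneg hA (imageShare_nonneg ρ X))
  rw [← hndef]
  calc |((((Icc 1 N).filter fun p => p.Prime ∧ P p).card : ℕ) : ℝ) - imageShare ρ X * logInt N|
      ≤ |((((Icc 1 N).filter fun p => p.Prime ∧ P p).card : ℕ) : ℝ) -
          countIn (someFrobSet ℚ F C) (N : ℝ)| +
        |(countIn (someFrobSet ℚ F C) (N : ℝ) : ℝ) - imageShare ρ X * logInt N| :=
        abs_sub_le _ _ _
    _ ≤ _ := by
        rw [logInt] at *
        linarith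

end FA.CyclicRed
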