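import Fermat.Agent.CyclicReductions.Asymptotic
import Fermat.Agent.CyclicReductions.Entangle
import Fermat.Agent.ArtinHooley.Ranges

/-!
# Serre's density is positive exactly when the `2`-torsion is not all rational

If some element moves `E[2]`, one moves it and every `ζ_q`, so every share is positive; adding a
prime `q` beyond the bad ones loses at most the factor `1 - 1 / (q - 1)`, so the share at `Z` is
`≫ Z ^ (-1/16)`, beating the tail `Z ^ (-1/8)`.
-/

set_option autoImplicit false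
set_option linter.style.haveILetI false

noncomputable section

open WeierstrassCurve FA.Frob Finset Filter
open FA.RT.Tate (Pts)
open FA.ReducedGroups (FullAt levelRep)
open scoped WeierstrassCurve.Affine Classical Topology

local notation "Qb" => AlgebraicClosure ℚ
local notation "GQ" => AlgebraicClosure ℚ ≃ₐ[ℚ] AlgebraicClosure ℚ

namespace FA.CyclicRed

variable {W : WeierstrassCurve ℤ}

section

variable [(ratCurve W).IsElliptic]

/-- Some element is trivial on none of the `E[q]`, `q ≤ z`, so the share is positive. -/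
theorem avoidShare_pos (h2 : ∃ σ : GQ, FA.TraceDist.glLevel W 2 σ ≠ 1) (z : ℕ) :
    0 < avoidShare W z := by
  obtain ⟨σ, hσ2, hσ⟩ := exists_seed (W := W) ((levelsUpTo z).filter (3 ≤ ·))
    (fun q hq => ⟨(mem_levelsUpTo.1 (mem_filter.1 hq).1).1, (mem_filter.1 hq).2⟩) h2
  refine div_pos (Nat.cast_pos.2 ?_) (Nat.cast_pos.2 Nat.card_pos)
  haveI : Nonempty {g : (levelRep W (levelsUpTo z)).range //
      (g : ∀ n : levelsUpTo z, GL (Fin 2) (ZMod (n : ℕ))) ∈
        {g : ∀ n : levelsUpTo z, GL (Fin 2) (ZMod (n : ℕ)) | ∀ n, g n ≠ 1}} := by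
    refine ⟨⟨(levelRep W (levelsUpTo z)).rangeRestrict σ, fun n e => ?_⟩⟩
    obtain ⟨n, hn⟩ := n
    obtain ⟨hp, hnz⟩ := mem_levelsUpTo.1 hn
    rcases eq_or_ne n 2 with rfl | hne
    · exact hσ2 e
    · haveI := Fact.mk hp
      exact hσ n (mem_filter.2 ⟨hn, Nat.lt_of_le_of_ne hp.two_le (Ne.symm hne)⟩)
        (chi_eq_one_of_glLevel e)
  exact Nat.card_pos

variable (hΔ : W.Δ ≠ 0)

include hΔ in
/-- **Adding one level beyond the bad ones.** -/
theorem avoidShare_succ_ge {z : ℕ} (hz : ∀ p ∈ badPrimes W, p ≤ z) :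
    avoidShare W z * (if (z + 1).Prime then 1 - 1 / (((z + 1 : ℕ) : ℝ) - 1) else 1) ≤
      avoidShare W (z + 1) := by
  have hold : ∀ σ : GQ, levelRep W (levelsUpTo (z + 1)) σ = 1 →
      levelRep W (levelsUpTo z) σ = 1 := fun σ h => funext fun n =>
    congrFun h ⟨n, mem_levelsUpTo.2 ⟨(mem_levelsUpTo.1 n.2).1,
      (mem_levelsUpTo.1 n.2).2.trans (Nat.le_succ z)⟩⟩
  split_ifs with hp
  · haveI := Fact.mk hp
    haveI : NeZero (z + 1) := ⟨Nat.succ_ne_zero z⟩
    have hq : z + 1 ∉ badPrimes W := fun h => by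
      have := hz _ h
      omega
    have hopen := FA.ReducedGroups.isOpen_ker_levelRep W (levelsUpTo z)
    rw [avoidShare, ← imageShare_prod_chi (levelRep W (levelsUpTo z)) hopen
      (q := z + 1) fun B hB σ hσ => MonoidHom.mem_ker.2 (funext fun n =>
        MonoidHom.mem_ker.1 (inertia_le_ker_glLevel W hp (good_of_not_mem hΔ hp hq).2
          (fun hd => by
            have := Nat.le_of_dvd (mem_levelsUpTo.1 n.2).1.pos hd
            have := (mem_levelsUpTo.1 n.2).2
            omega) hB hσ))]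
    refine imageShare_le_of_ker_le (levelRep W (levelsUpTo (z + 1))) _ (fun σ hσ => ?_)
      fun σ hσ n e => ?_
    · rw [MonoidHom.mem_ker] at hσ ⊢
      exact Prod.ext (hold σ hσ)
        (chi_eq_one_of_glLevel (congrFun hσ ⟨z + 1, mem_levelsUpTo.2 ⟨hp, le_rfl⟩⟩))
    · obtain ⟨n, hn⟩ := n
      obtain ⟨hnp, hnz⟩ := mem_levelsUpTo.1 hn
      rcases eq_or_ne n (z + 1) with rfl | hne
      · exact hσ.2 (chi_eq_one_of_glLevel e)
      · exact hσ.1 ⟨n, mem_levelsUpTo.2 ⟨hnp, by omega⟩⟩ e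
  · rw [mul_one, avoidShare, avoidShare]
    refine imageShare_le_of_ker_le (levelRep W (levelsUpTo (z + 1))) _
      (fun σ hσ => MonoidHom.mem_ker.2 (hold σ (MonoidHom.mem_ker.1 hσ))) fun σ hσ n e => ?_
    obtain ⟨n, hn⟩ := n
    obtain ⟨hnp, hnz⟩ := mem_levelsUpTo.1 hn
    exact hσ ⟨n, mem_levelsUpTo.2 ⟨hnp, Nat.le_of_lt_succ (Nat.lt_of_le_of_ne hnz
      fun h => hp (by rw [show z + 1 = n from h.symm]; exact hnp))⟩⟩ e

theorem exp_neg_le_factor {q : ℕ} (hq : 4 ≤ q) :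
    Real.exp (-4 * (1 / (q : ℝ))) ≤ 1 - 1 / ((q : ℝ) - 1) := by
  have hq' : (4 : ℝ) ≤ q := Nat.ofNat_le_cast.2 hq
  have h1 := Real.add_one_le_exp (4 * (1 / (q : ℝ)))
  rw [neg_mul, Real.exp_neg, one_sub_div (by linarith)]
  rw [inv_le_iff_one_le_mul₀ (Real.exp_pos _)]
  refine le_trans ?_ (mul_le_mul_of_nonneg_left h1 (div_nonneg (by linarith) (by linarith)))
  rw [div_mul_eq_mul_div, le_div_iff₀ (by linarith), mul_one_div]
  field_simp
  nlinarith

include hΔ in
theorem avoidShare_ge {z₀ : ℕ} (h4 : 4 ≤ z₀) (hz : ∀ p ∈ badPrimes W, p ≤ z₀) {Z : ℕ}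
    (hZ : z₀ ≤ Z) :
    avoidShare W z₀ * Real.exp (-4 * ∑ q ∈ (Ioc z₀ Z).filter Nat.Prime, 1 / (q : ℝ)) ≤
      avoidShare W Z := by
  induction Z, hZ using Nat.le_induction with
  | base => simp
  | succ j hj ih =>
    have hs := avoidShare_succ_ge hΔ fun p hp => (hz p hp).trans hj
    have hnn : 0 ≤ avoidShare W j := imageShare_nonneg _ _
    rw [show Ioc z₀ (j + 1) = insert (j + 1) (Ioc z₀ j) by
      ext x; simp only [mem_insert, mem_Ioc]; omega, filter_insert]
    split_ifs with hp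
    · rw [if_pos hp] at hs
      rw [sum_insert (fun h => by
        rw [mem_filter, mem_Ioc] at h
        omega), mul_add, Real.exp_add, mul_left_comm]
      refine le_trans ?_ hs
      rw [mul_comm (avoidShare W j)]
      exact mul_le_mul (exp_neg_le_factor (by omega)) ih
        (mul_nonneg (imageShare_nonneg _ _) (Real.exp_pos _).le)
        (le_trans (Real.exp_pos _).le (exp_neg_le_factor (q := j + 1) (by omega)))
    · rw [if_neg hp, mul_one] at hs
      exact ih.trans hs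

include hΔ in
/-- **Serre's density is positive.** -/
theorem cycDensity_pos (hGRH : AllFieldsRH)
    (h2 : ∃ σ : GQ, FA.TraceDist.glLevel W 2 σ ≠ 1) : 0 < cycDensity W := by
  obtain ⟨C, hC, hgap⟩ := exists_avoidShare_le hΔ hGRH
  obtain ⟨z₀, ⟨hz4, hzbad⟩, hlog⟩ := (((eventually_ge_atTop 4).and
    (eventually_ge_atTop ((badPrimes W).sup id))).and
      ((Real.tendsto_log_atTop.comp tendsto_natCast_atTop_atTop).eventually_ge_atTop 64)).exists
  simp only [Function.comp_apply] at hlog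
  obtain ⟨c, hc⟩ : ∃ c, c = avoidShare W z₀ * Real.exp (-1) := ⟨_, rfl⟩
  have hc0 : 0 < c := hc ▸ mul_pos (avoidShare_pos h2 z₀) (Real.exp_pos _)
  have hlim : Tendsto (fun Z : ℕ => C * (Z : ℝ) ^ (-(1 / 16) : ℝ)) atTop (𝓝 0) := by
    simpa using ((tendsto_rpow_neg_atTop (show (0 : ℝ) < 1 / 16 by norm_num)).comp
      tendsto_natCast_atTop_atTop).const_mul C
  obtain ⟨Z, hZ, hZC⟩ := ((eventually_ge_atTop z₀).and
    (hlim.eventually (eventually_lt_nhds hc0))).exists
  have hZ0 : (0 : ℝ) < Z := Nat.cast_pos.2 (by omega)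
  have hbad : ∀ p ∈ badPrimes W, p ≤ z₀ := fun p hp =>
    (Finset.le_sup (f := id) hp).trans hzbad
  have hsum : -1 + Real.log Z * (-(1 / 16)) ≤
      -4 * ∑ q ∈ (Ioc z₀ Z).filter Nat.Prime, 1 / (q : ℝ) := by
    have h := FA.ArtinHooley.sum_inv_prime_le (u := z₀) (by omega) hZ
    have hlZ : 0 ≤ Real.log (Z : ℝ) := Real.log_natCast_nonneg Z
    have : (Real.log Z - Real.log z₀ + 12) / Real.log z₀ ≤ Real.log Z / 64 := by
      rw [div_le_div_iff₀ (by linarith) (by norm_num)]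
      nlinarith
    linarith
  have h1 := avoidShare_ge hΔ hz4 hbad hZ
  have h2' : c * (Z : ℝ) ^ (-(1 / 16) : ℝ) ≤ avoidShare W Z := by
    refine le_trans ?_ h1
    rw [hc, mul_assoc, Real.rpow_def_of_pos hZ0, ← Real.exp_add]
    exact mul_le_mul_of_nonneg_left (Real.exp_le_exp.2 hsum) (avoidShare_pos h2 z₀).le
  have h3 := hgap Z (by omega)
  have e : (Z : ℝ) ^ (-(1 / 8) : ℝ) = (Z : ℝ) ^ (-(1 / 16) : ℝ) * (Z : ℝ) ^ (-(1 / 16) : ℝ) := by
    rw [← Real.rpow_add hZ0]
    norm_num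
  have h4 : C * (Z : ℝ) ^ (-(1 / 8) : ℝ) < c * (Z : ℝ) ^ (-(1 / 16) : ℝ) := by
    rw [e, ← mul_assoc]
    exact mul_lt_mul_of_pos_right hZC (Real.rpow_pos_of_pos hZ0 _)
  linarith

end

/-- With `E[2]` fixed no prime outside `2 Δ` has cyclic reduction. -/
theorem cycSet_subset_of_trivial [(ratCurve W).IsElliptic] (hΔ : W.Δ ≠ 0)
    (h : ∀ σ : GQ, FA.TraceDist.glLevel W 2 σ = 1) {p : ℕ} (hp : CycPrime W p) :
    p ∈ badPrimes W := by
  by_contra hbad
  obtain ⟨hf, -, hcyc⟩ := hp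
  obtain ⟨h3, hgood⟩ := good_of_not_mem hΔ hf.out hbad
  obtain ⟨A, hA⟩ := FA.Deform.exists_liesOverPrime hf.out
  obtain ⟨σ, hσ⟩ := FA.Deform.exists_isFrobeniusAt hf.out hA
  exact FA.ReducedGroups.not_fullAt_of_isAddCyclic W le_rfl hcyc
    ((FA.ReducedGroups.fullAt_iff W hf.out hgood
      (fun hd => by have := Nat.le_of_dvd two_pos hd; omega) hA hσ).2 (h σ))

/-- All `2`-torsion is rational exactly when Galois fixes `E[2]`. -/
theorem natCard_two_torsion_eq_iff [(ratCurve W).IsElliptic] :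
    Nat.card {P : (ratCurve W).toAffine.Point // 2 • P = 0} = 4 ↔
      ∀ σ : GQ, FA.TraceDist.glLevel W 2 σ = 1 := by
  let φ : {P : (ratCurve W).toAffine.Point // 2 • P = 0} → {Q : Pts W // 2 • Q = 0} :=
    fun P => ⟨FA.PointDiv.up W P.1, by rw [← map_nsmul, P.2, map_zero]⟩
  have hinj : Function.Injective φ := fun P P' e =>
    Subtype.ext (mapHom_injective _ _ (congrArg Subtype.val e))
  have hcx : Nat.card {Q : Pts W // 2 • Q = 0} = 4 :=
    FA.EC.natCard_nsmul_eq_zero _ (Nat.cast_ne_zero.2 two_ne_zero)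
  haveI : Finite {Q : Pts W // 2 • Q = 0} := Nat.finite_of_card_ne_zero (by omega)
  constructor
  · intro hfull σ
    refine Units.ext ((FA.TraceDist.repLevel_eq_one_iff σ).2 fun x hx => ?_)
    obtain ⟨P, hP⟩ := ((Nat.bijective_iff_injective_and_card φ).2
      ⟨hinj, hfull.trans hcx.symm⟩).2 ⟨x, hx⟩
    obtain rfl : FA.PointDiv.up W P.1 = x := congrArg Subtype.val hP
    exact FA.PointDiv.smul_up W σ P.1
  · intro h
    rw [← hcx]
    refine Nat.card_congr (Equiv.ofBijective φ ⟨hinj, fun Q => ?_⟩)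
    obtain ⟨R, hR⟩ := FA.PointDiv.exists_up_eq (W := W) (Q := Q.1) fun σ =>
      (FA.TraceDist.repLevel_eq_one_iff σ).1 (congrArg Units.val (h σ)) Q.1 Q.2
    refine ⟨⟨R, mapHom_injective (algebraMap ℚ Qb) rfl ?_⟩, Subtype.ext hR⟩
    show FA.PointDiv.up W (2 • R) = FA.PointDiv.up W 0
    rw [map_nsmul, hR, Q.2, map_zero]

theorem infinite_cycPrime [(ratCurve W).IsElliptic] (hΔ : W.Δ ≠ 0) (hGRH : AllFieldsRH)
    (h2 : ∃ σ : GQ, FA.TraceDist.glLevel W 2 σ ≠ 1) : {p : ℕ | CycPrime W p}.Infinite := by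
  intro hfin
  refine (cycDensity_pos hΔ hGRH h2).ne' (tendsto_nhds_unique (tendsto_cycSet hΔ hGRH) ?_)
  have h0 : Tendsto (fun N : ℕ => (hfin.toFinset.card : ℝ) * (Real.log N / N)) atTop (𝓝 0) := by
    have := ((Real.isLittleO_log_id_atTop.tendsto_div_nhds_zero).comp
      tendsto_natCast_atTop_atTop).const_mul (hfin.toFinset.card : ℝ)
    simpa [Function.comp_def] using this
  refine squeeze_zero (fun N => by
    have := Real.log_natCast_nonneg N
    positivity) (fun N => ?_) h0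
  rw [mul_div_assoc]
  refine mul_le_mul_of_nonneg_right (Nat.cast_le.2 (card_le_card fun p hp => ?_))
    (div_nonneg (Real.log_natCast_nonneg N) (Nat.cast_nonneg N))
  exact hfin.mem_toFinset.2 (mem_filter.1 hp).2

end FA.CyclicRed

end
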